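import Mathlib

set_option autoImplicit false

open UpperHalfPlane hiding I
open ModularForm EisensteinSeries Complex Filter Topology Manifold
open Derivative MatrixGroups CongruenceSubgroup
open scoped Real

namespace Fermat.Agent.X0

local notation "Δ" => ModularForm.discriminant
local notation "𝕢" => Function.Periodic.qParam

/-- `D F = q * c'(q)` where `c` is the cusp function -/
theorem jf_D_eq_cusp {k : ℤ} (F : ModularForm 𝒮ℒ k) (z : ℍ) :
    D F z = 𝕢 1 z * deriv (cuspFunction 1 F) (𝕢 1 z) := by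
  have hq : HasDerivAt (𝕢 1) (2 * π * I * 𝕢 1 z) (z : ℂ) := by
    have h1 : HasDerivAt (fun w : ℂ => 2 * π * I * w / (1 : ℝ)) (2 * π * I) (z : ℂ) := by
      simpa using (hasDerivAt_id (z : ℂ)).const_mul (2 * π * I)
    have h2 := h1.cexp
    have h3 : (𝕢 1) = fun w : ℂ => cexp (2 * π * I * w / (1 : ℝ)) := by
      ext w; rfl
    rw [h3]
    have h4 : 2 * π * I * (fun w : ℂ => cexp (2 * π * I * w / (1 : ℝ))) (z : ℂ) =
        cexp (2 * π * I * z / (1 : ℝ)) * (2 * π * I) := by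
      simp only []
      ring
    rw [h4]
    exact h2
  have hc : DifferentiableAt ℂ (cuspFunction 1 F) (𝕢 1 z) :=
    ModularFormClass.differentiableAt_cuspFunction F one_pos one_mem_strictPeriods_SL
      (by simpa using UpperHalfPlane.norm_qParam_lt_one 1 z)
  have heq : (F ∘ ofComplex) =ᶠ[𝓝 (z : ℂ)] (cuspFunction 1 F) ∘ (𝕢 1) := by
    filter_upwards [isOpen_upperHalfPlaneSet.mem_nhds z.im_pos] with w hw
    have := SlashInvariantFormClass.eq_cuspFunction (h := 1) F ⟨w, hw⟩ one_mem_strictPeriods_SL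
      one_ne_zero
    simp only [Function.comp_apply, ofComplex_apply_of_im_pos hw]
    exact this.symm
  have hd : HasDerivAt (F ∘ ofComplex) (deriv (cuspFunction 1 F) (𝕢 1 z) * (2 * π * I * 𝕢 1 z))
      (z : ℂ) :=
    (hc.hasDerivAt.comp (z : ℂ) hq).congr_of_eventuallyEq heq
  rw [normalizedDerivOfComplex, hd.deriv]
  have : (2 * π * I : ℂ) ≠ 0 := by simp [Real.pi_ne_zero]
  field_simp

/-- `D F → 0` at `i∞` -/
theorem jf_D_tendsto {k : ℤ} (F : ModularForm 𝒮ℒ k) :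
    Tendsto (D F) atImInfty (𝓝 0) := by
  have han : AnalyticAt ℂ (cuspFunction 1 F) 0 :=
    ModularFormClass.analyticAt_cuspFunction_zero F one_pos one_mem_strictPeriods_SL
  have hcont : ContinuousAt (deriv (cuspFunction 1 F)) 0 := han.deriv.continuousAt
  have hq : Tendsto (fun z : ℍ => 𝕢 1 z) atImInfty (𝓝 0) :=
    qParam_tendsto_atImInfty one_pos
  have h1 : Tendsto (fun z : ℍ => 𝕢 1 z * deriv (cuspFunction 1 F) (𝕢 1 z)) atImInfty
      (𝓝 (0 * deriv (cuspFunction 1 F) 0)) :=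
    hq.mul (hcont.tendsto.comp hq)
  rw [zero_mul] at h1
  exact h1.congr (fun z => (jf_D_eq_cusp F z).symm)

/-- the value at infinity as a limit -/
theorem jf_tendsto_valueAtInfty {k : ℤ} (F : ModularForm 𝒮ℒ k) :
    Tendsto F atImInfty (𝓝 ((qExpansion 1 F).coeff 0)) := by
  have han : AnalyticAt ℂ (cuspFunction 1 F) 0 :=
    ModularFormClass.analyticAt_cuspFunction_zero F one_pos one_mem_strictPeriods_SL
  have hq : Tendsto (fun z : ℍ => 𝕢 1 z) atImInfty (𝓝 0) :=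
    qParam_tendsto_atImInfty one_pos
  have h1 := han.continuousAt.tendsto.comp hq
  have h2 : (qExpansion 1 F).coeff 0 = cuspFunction 1 F 0 := by
    simp [qExpansion_coeff]
  rw [h2]
  refine h1.congr (fun z => ?_)
  exact SlashInvariantFormClass.eq_cuspFunction (h := 1) F z one_mem_strictPeriods_SL one_ne_zero

theorem jf_E2_periodic : Function.Periodic (E2 ∘ ofComplex) (1 : ℝ) := by
  intro w
  by_cases! hw : 0 < im w
  · have h1 : 0 < im (w + (1 : ℝ)) := by simp [hw]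
    simp only [Function.comp_apply, ofComplex_apply_of_im_pos h1, ofComplex_apply_of_im_pos hw]
    rw [E2_eq_tsum_cexp, E2_eq_tsum_cexp]
    have : cexp (2 * π * I * ((⟨w + (1 : ℝ), h1⟩ : ℍ) : ℂ)) =
        cexp (2 * π * I * ((⟨w, hw⟩ : ℍ) : ℂ)) := by
      simp only [ofReal_one, mul_add, mul_one]
      rw [Complex.exp_add, Complex.exp_two_pi_mul_I, mul_one]
    rw [this]
  · have h1 : im (w + (1 : ℝ)) ≤ 0 := by simpa using hw
    simp only [Function.comp_apply]
    rw [ofComplex_apply_of_im_nonpos h1, ofComplex_apply_of_im_nonpos hw]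

theorem jf_E2_tendsto : Tendsto E2 atImInfty (𝓝 1) := by
  have han : AnalyticAt ℂ (cuspFunction 1 E2) 0 :=
    analyticAt_cuspFunction_zero one_pos jf_E2_periodic E2_mdifferentiable isBoundedAtImInfty_E2
  have hs : ∀ τ : ℍ, HasSum (fun m : ℕ ↦ (if m = 0 then 1 else -24 * ArithmeticFunction.sigma 1 m : ℂ) •
      𝕢 1 τ ^ m) (E2 τ) := fun τ ↦ by
    simpa only [Function.Periodic.qParam, ofReal_one, div_one] using hasSum_qExpansion_E2 (z := τ)
  have h0 := (hasFPowerSeriesOnBall_cuspFunction one_pos han hs).coeff_zero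
  have hq : Tendsto (fun z : ℍ => 𝕢 1 z) atImInfty (𝓝 0) := qParam_tendsto_atImInfty one_pos
  have h1 := han.continuousAt.tendsto.comp hq
  have h2 : cuspFunction 1 E2 0 = 1 := by
    have := h0 (fun _ => 0)
    simpa using this.symm
  rw [h2] at h1
  refine h1.congr (fun z => ?_)
  exact eq_cuspFunction z one_ne_zero jf_E2_periodic

theorem jf_serre_tendsto {k : ℤ} (F : ModularForm 𝒮ℒ k) :
    Tendsto (serreDerivative k F) atImInfty (𝓝 (-(k * 12⁻¹ * (qExpansion 1 F).coeff 0))) := by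
  have h := (jf_D_tendsto F).sub
    ((jf_E2_tendsto.const_mul ((k : ℂ) * 12⁻¹)).mul (jf_tendsto_valueAtInfty F))
  simp only [mul_one, zero_sub] at h
  exact h

/-- the Serre derivative of a level one form as a modular form -/
noncomputable def jfSerre {k : ℤ} (F : ModularForm 𝒮ℒ k) : ModularForm 𝒮ℒ (k + 2) where
  toFun := serreDerivative k F
  slash_action_eq' := fun _ ⟨γ, hγ⟩ ↦ by
    subst hγ
    exact serreDerivative_slash_invariant F.holo'
      (SlashInvariantForm.slash_action_eqn F _ ⟨γ, rfl⟩)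
  holo' := serreDerivative_mdifferentiable k F.holo'
  bdd_at_cusps' {c} hc := by
    rw [Subgroup.IsArithmetic.isCusp_iff_isCusp_SL2Z] at hc
    rw [OnePoint.isBoundedAt_iff_forall_SL2Z hc]
    intro γ _
    have : serreDerivative (k : ℂ) F ∣[k + 2] γ = serreDerivative k F :=
      serreDerivative_slash_invariant F.holo'
        (SlashInvariantForm.slash_action_eqn F _ ⟨γ, rfl⟩)
    rw [this]
    exact (jf_serre_tendsto F).isBigO_one ℝ

theorem jfSerre_apply {k : ℤ} (F : ModularForm 𝒮ℒ k) (z : ℍ) :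
    jfSerre F z = D F z - k * 12⁻¹ * E2 z * F z := rfl

/-- a level one form of weight `< 12` tending to `0` at infinity vanishes -/
theorem jf_eq_zero_of_tendsto {k : ℤ} (hk : k < 12) (F : ModularForm 𝒮ℒ k)
    (h : Tendsto F atImInfty (𝓝 0)) : F = 0 := by
  apply sturm_bound_levelOne
  have h0 : (qExpansion 1 F).coeff 0 = 0 :=
    tendsto_nhds_unique (jf_tendsto_valueAtInfty F) h
  have hk' : k.toNat / 12 = 0 := by omega
  rw [hk']
  have h1 : (qExpansion 1 F).order ≠ 0 :=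
    PowerSeries.order_ne_zero_iff_constCoeff_eq_zero.mpr (by simpa using h0)
  exact pos_iff_ne_zero.mpr h1

theorem jf_E4_coeff_zero : (qExpansion 1 E₄).coeff 0 = 1 :=
  E_qExpansion_coeff_zero (by norm_num) (by decide)

theorem jf_E6_coeff_zero : (qExpansion 1 E₆).coeff 0 = 1 :=
  E_qExpansion_coeff_zero (by norm_num) (by decide)

theorem jf_E4_tendsto : Tendsto E₄ atImInfty (𝓝 1) := by
  have := jf_tendsto_valueAtInfty E₄
  rwa [jf_E4_coeff_zero] at this

theorem jf_E6_tendsto : Tendsto E₆ atImInfty (𝓝 1) := by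
  have := jf_tendsto_valueAtInfty E₆
  rwa [jf_E6_coeff_zero] at this

/-- Ramanujan: `D E₄ = (E₂ E₄ - E₆) / 3` -/
theorem jf_D_E4 (z : ℍ) : D E₄ z = (E2 z * E₄ z - E₆ z) / 3 := by
  have h : ModularForm.mcast (by norm_num : (4 : ℤ) + 2 = 6) (jfSerre E₄) + (3⁻¹ : ℂ) • E₆ = 0 := by
    apply jf_eq_zero_of_tendsto (by norm_num)
    have h1 := (jf_serre_tendsto E₄).add (jf_E6_tendsto.const_mul (3⁻¹ : ℂ))
    rw [jf_E4_coeff_zero] at h1
    have h2 : -(((4 : ℤ) : ℂ) * 12⁻¹ * 1) + 3⁻¹ * 1 = 0 := by norm_num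
    rw [h2] at h1
    exact h1
  have h3 := congrArg (fun f : ModularForm 𝒮ℒ 6 => f z) h
  simp only [add_apply, smul_apply, ModularForm.mcast_apply, jfSerre_apply,
    zero_apply, smul_eq_mul] at h3
  push_cast at h3
  linear_combination h3

/-- Ramanujan: `D E₆ = (E₂ E₆ - E₄ ^ 2) / 2` -/
theorem jf_D_E6 (z : ℍ) : D E₆ z = (E2 z * E₆ z - E₄ z ^ 2) / 2 := by
  have h : ModularForm.mcast (by norm_num : (6 : ℤ) + 2 = 8) (jfSerre E₆) +
      (2⁻¹ : ℂ) • ModularForm.mcast (by norm_num : (4 : ℤ) + 4 = 8) (E₄.mul E₄) = 0 := by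
    apply jf_eq_zero_of_tendsto (by norm_num)
    have h1 := (jf_serre_tendsto E₆).add ((jf_E4_tendsto.mul jf_E4_tendsto).const_mul (2⁻¹ : ℂ))
    rw [jf_E6_coeff_zero] at h1
    have h2 : -(((6 : ℤ) : ℂ) * 12⁻¹ * 1) + 2⁻¹ * (1 * 1) = 0 := by norm_num
    rw [h2] at h1
    exact h1
  have h3 := congrArg (fun f : ModularForm 𝒮ℒ 8 => f z) h
  simp only [add_apply, smul_apply, ModularForm.mcast_apply, jfSerre_apply,
    zero_apply, smul_eq_mul, ModularForm.coe_mul, Pi.mul_apply] at h3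
  push_cast at h3
  linear_combination h3

/-- `D Δ = E₂ Δ` -/
theorem jf_D_disc (z : ℍ) : D Δ z = E2 z * Δ z := by
  have heq : (Δ ∘ ofComplex) =ᶠ[𝓝 (z : ℂ)] fun w => ModularForm.eta w ^ 24 := by
    filter_upwards [isOpen_upperHalfPlaneSet.mem_nhds z.im_pos] with w hw
    simp [ModularForm.discriminant, ofComplex_apply_of_im_pos hw]
  have hη : DifferentiableAt ℂ ModularForm.eta (z : ℂ) := differentiableAt_eta_of_mem_upperHalfPlaneSet z.im_pos
  have hne : ModularForm.eta (z : ℂ) ≠ 0 := eta_ne_zero z.im_pos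
  have hl := logDeriv_eta_eq_E2 z
  rw [logDeriv_apply, div_eq_iff hne] at hl
  have hd : HasDerivAt (fun w => ModularForm.eta w ^ 24) (24 * ModularForm.eta z ^ 23 * deriv ModularForm.eta z) (z : ℂ) := by
    have := hη.hasDerivAt.pow 24
    norm_num at this
    exact this
  rw [normalizedDerivOfComplex, heq.deriv_eq, hd.deriv, hl, ModularForm.discriminant]
  have : (2 * π * I : ℂ) ≠ 0 := by simp [Real.pi_ne_zero]
  field_simp
  ring

/-- the `j`-function (normalised as `E₄³/Δ`, so that `j = 1/q + 744 + ⋯`) -/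
noncomputable def jFun (z : ℍ) : ℂ := E₄ z ^ 3 / Δ z

theorem jf_disc_eq (z : ℍ) : 1728 * Δ z = E₄ z ^ 3 - E₆ z ^ 2 := by
  rw [discriminant_eq_E₄_cube_sub_E₆_sq z]
  ring

theorem jFun_sub_1728 (z : ℍ) : jFun z - 1728 = E₆ z ^ 2 / Δ z := by
  have h := discriminant_ne_zero z
  rw [jFun, sub_eq_iff_eq_add, div_eq_iff h, add_mul, div_mul_cancel₀ _ h, jf_disc_eq]
  ring

theorem jf_disc_mdiff : MDiff Δ := CuspForm.discriminant.holo'

theorem jFun_mdiff : MDiff jFun :=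
  (E₄.holo'.pow 3).div jf_disc_mdiff discriminant_ne_zero

/-- transformation law for level one forms -/
theorem jf_smul_eq {k : ℤ} {F : Type*} [FunLike F ℍ ℂ] [SlashInvariantFormClass F 𝒮ℒ k] (f : F)
    (γ : SL(2, ℤ)) (z : ℍ) : f (γ • z) = (denom γ z) ^ k * f z := by
  have := SlashInvariantForm.slash_action_eqn'' (Γ := 𝒮ℒ) f (γ := (γ : GL (Fin 2) ℝ)) ⟨γ, rfl⟩ z
  exact this

theorem jFun_smul (γ : SL(2, ℤ)) (z : ℍ) : jFun (γ • z) = jFun z := by
  have h1 := jf_smul_eq E₄ γ z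
  have h2 : Δ (γ • z) = (denom γ z) ^ (12 : ℤ) * Δ z := jf_smul_eq CuspForm.discriminant γ z
  have hd := denom_ne_zero γ z
  have hΔ := discriminant_ne_zero z
  rw [jFun, jFun, h1, h2]
  have e1 : (denom γ z) ^ (4 : ℤ) = (denom γ z) ^ 4 := zpow_ofNat _ 4
  have e2 : (denom γ z) ^ (12 : ℤ) = (denom γ z) ^ 12 := zpow_ofNat _ 12
  rw [e1, e2]
  field_simp

/-- `D j = - E₄² E₆ / Δ` -/
theorem jf_D_jFun (z : ℍ) : D jFun z = - (E₄ z ^ 2 * E₆ z) / Δ z := by
  have hΔ := discriminant_ne_zero z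
  have h1 : (jFun * Δ : ℍ → ℂ) = (E₄ : ℍ → ℂ) ^ 3 := by
    ext w
    simp only [Pi.mul_apply, Pi.pow_apply, jFun]
    exact div_mul_cancel₀ _ (discriminant_ne_zero w)
  have h2 := congrFun (normalizedDerivOfComplex_mul jFun Δ jFun_mdiff jf_disc_mdiff) z
  rw [h1, normalizedDerivOfComplex_pow (⇑E₄) 3 (ModularFormClass.holo E₄)] at h2
  simp only [Pi.mul_apply, Pi.add_apply, Pi.pow_apply, jf_D_E4, jf_D_disc] at h2
  have h3 : jFun z * Δ z = E₄ z ^ 3 := congrFun h1 z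
  rw [eq_div_iff hΔ]
  push_cast at h2
  simp only [Pi.ofNat_apply] at h2
  linear_combination (-1 : ℂ) * h2 - E2 z * h3

/-- a level one form of positive weight which does not vanish at `i∞` has a zero in `ℍ` -/
theorem jf_exists_zero {k : ℤ} (hk : 0 < k) (G : ModularForm 𝒮ℒ k)
    (hG : (qExpansion 1 G).coeff 0 ≠ 0) : ∃ z : ℍ, G z = 0 := by
  by_contra hcon
  push Not at hcon
  have hslash : ∀ γ : SL(2, ℤ), (fun z ↦ (1 : ModularForm 𝒮ℒ 0) z / G z) ∣[0 - k] γ =
      fun z ↦ (1 : ModularForm 𝒮ℒ 0) z / G z := by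
    intro γ
    have hγ : (γ : GL (Fin 2) ℝ) ∈ 𝒮ℒ := ⟨γ, rfl⟩
    change (⇑(1 : ModularForm 𝒮ℒ 0) / ⇑G) ∣[0 - k] γ = ⇑(1 : ModularForm 𝒮ℒ 0) / ⇑G
    simp_rw [div_slash_SL2, SL_slash, SlashInvariantForm.slash_action_eqn _ _ hγ]
  let H : ModularForm 𝒮ℒ (0 - k) :=
    { toFun z := (1 : ModularForm 𝒮ℒ 0) z / G z
      slash_action_eq' := fun _ ⟨γ, hγ⟩ ↦ hγ ▸ hslash γ
      holo' := (1 : ModularForm 𝒮ℒ 0).holo'.div G.holo' hcon
      bdd_at_cusps' {c} hc := by
        rw [Subgroup.IsArithmetic.isCusp_iff_isCusp_SL2Z] at hc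
        rw [OnePoint.isBoundedAt_iff_forall_SL2Z hc]
        intro γ _
        rw [hslash γ]
        have h1 : Tendsto (fun z ↦ (1 : ModularForm 𝒮ℒ 0) z / G z) atImInfty
            (𝓝 (1 / (qExpansion 1 G).coeff 0)) :=
          (tendsto_const_nhds (x := (1 : ℂ))).div (jf_tendsto_valueAtInfty G) hG
        exact h1.isBigO_one ℝ }
  have hH : (H : ℍ → ℂ) = 0 := ModularFormClass.levelOne_neg_weight_eq_zero (by omega) H
  have h1 := congrFun hH UpperHalfPlane.I
  have h2 : H UpperHalfPlane.I = 1 / G UpperHalfPlane.I := rfl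
  rw [h2] at h1
  simp only [Pi.zero_apply, one_div, inv_eq_zero] at h1
  exact hcon _ h1

/-- the form `E₄³ - w Δ` of weight 12 -/
noncomputable def jfForm (w : ℂ) : ModularForm 𝒮ℒ 12 :=
  ModularForm.mcast (by norm_num : ((3 : ℕ) : ℤ) * 4 = 12) (E₄.pow 3) -
    w • (CuspForm.discriminant : ModularForm 𝒮ℒ 12)

theorem jfForm_apply (w : ℂ) (z : ℍ) : jfForm w z = E₄ z ^ 3 - w * Δ z := by
  have h : (E₄.pow 3) z = E₄ z ^ 3 := by
    rw [ModularForm.coe_pow]; rfl
  simp [jfForm, ModularForm.mcast_apply, h]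

theorem jfForm_eq (w : ℂ) (z : ℍ) : jfForm w z = Δ z * (jFun z - w) := by
  rw [jfForm_apply, jFun, mul_sub, mul_div_cancel₀ _ (discriminant_ne_zero z)]
  ring

theorem jfForm_tendsto (w : ℂ) : Tendsto (jfForm w) atImInfty (𝓝 1) := by
  have h := (jf_E4_tendsto.pow 3).sub
    ((discriminant_isZeroAtImInfty : Tendsto Δ atImInfty (𝓝 0)).const_mul w)
  simp only [one_pow, mul_zero, sub_zero] at h
  exact h.congr (fun z => (jfForm_apply w z).symm)

/-- (C2) the `j`-function is surjective -/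
theorem jFun_surjective : Function.Surjective jFun := by
  intro w
  have h0 : (qExpansion 1 (jfForm w)).coeff 0 = 1 :=
    tendsto_nhds_unique (jf_tendsto_valueAtInfty _) (jfForm_tendsto w)
  obtain ⟨z, hz⟩ := jf_exists_zero (by norm_num) (jfForm w) (by rw [h0]; exact one_ne_zero)
  refine ⟨z, ?_⟩
  rw [jfForm_eq] at hz
  exact sub_eq_zero.mp ((mul_eq_zero.mp hz).resolve_left (discriminant_ne_zero z))

/-! ### Analytic orders -/

theorem jf_analyticAt {F : ℍ → ℂ} (hF : MDiff F) (z : ℍ) : AnalyticAt ℂ (F ∘ ofComplex) (z : ℂ) := by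
  have h : DifferentiableOn ℂ (F ∘ ofComplex) upperHalfPlaneSet :=
    UpperHalfPlane.mdifferentiable_iff.mp hF
  exact h.analyticAt (isOpen_upperHalfPlaneSet.mem_nhds z.im_pos)

theorem jf_deriv_eq (F : ℍ → ℂ) (z : ℍ) : deriv (F ∘ ofComplex) (z : ℂ) = 2 * π * I * D F z := by
  have : (2 * π * I : ℂ) ≠ 0 := by simp [Real.pi_ne_zero]
  rw [normalizedDerivOfComplex]
  field_simp

theorem jf_order_eq_one {F : ℍ → ℂ} (hF : MDiff F) (z : ℍ) (h0 : F z = 0) (hD : D F z ≠ 0) :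
    analyticOrderAt (F ∘ ofComplex) (z : ℂ) = 1 := by
  apply (jf_analyticAt hF z).analyticOrderAt_eq_one_of_zero_deriv_ne_zero
  · simpa using h0
  · rw [jf_deriv_eq]
    have : (2 * π * I : ℂ) ≠ 0 := by simp [Real.pi_ne_zero]
    exact mul_ne_zero this hD

theorem jf_not_E4_E6 (z : ℍ) (h4 : E₄ z = 0) (h6 : E₆ z = 0) : False := by
  have := jf_disc_eq z
  rw [h4, h6] at this
  have h := discriminant_ne_zero z
  apply h
  have h2 : (1728 : ℂ) * Δ z = 0 := by rw [this]; ring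
  simpa using h2

/-- zeros of `E₄` are simple -/
theorem jf_order_E4 (z : ℍ) (h4 : E₄ z = 0) : analyticOrderAt (E₄ ∘ ofComplex) (z : ℂ) = 1 := by
  apply jf_order_eq_one (ModularFormClass.holo E₄) z h4
  rw [jf_D_E4, h4]
  intro h
  apply jf_not_E4_E6 z h4
  have : E₆ z = -3 * ((E2 z * 0 - E₆ z) / 3) := by ring
  rw [this, h]; ring

/-- zeros of `E₆` are simple -/
theorem jf_order_E6 (z : ℍ) (h6 : E₆ z = 0) : analyticOrderAt (E₆ ∘ ofComplex) (z : ℂ) = 1 := by
  apply jf_order_eq_one (ModularFormClass.holo E₆) z h6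
  rw [jf_D_E6, h6]
  intro h
  have h4 : E₄ z ^ 2 = 0 := by
    have : E₄ z ^ 2 = -2 * ((E2 z * 0 - E₄ z ^ 2) / 2) := by ring
    rw [this, h]; ring
  exact jf_not_E4_E6 z (by simpa using h4) h6

/-- generic points: `j - j z` has a simple zero at `z` -/
theorem jFun_order_generic (z : ℍ) (h4 : E₄ z ≠ 0) (h6 : E₆ z ≠ 0) :
    analyticOrderAt (fun w : ℂ => jFun (ofComplex w) - jFun z) (z : ℂ) = 1 := by
  have h := (jf_analyticAt jFun_mdiff z).analyticOrderAt_sub_eq_one_of_deriv_ne_zero (by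
    rw [jf_deriv_eq, jf_D_jFun]
    have : (2 * π * I : ℂ) ≠ 0 := by simp [Real.pi_ne_zero]
    refine mul_ne_zero this (div_ne_zero (neg_ne_zero.mpr (mul_ne_zero (pow_ne_zero 2 h4) h6))
      (discriminant_ne_zero z)))
  simpa using h

theorem jf_order_inv_disc (z : ℍ) :
    AnalyticAt ℂ (fun w : ℂ => (Δ (ofComplex w))⁻¹) (z : ℂ) ∧
      analyticOrderAt (fun w : ℂ => (Δ (ofComplex w))⁻¹) (z : ℂ) = 0 := by
  have h1 : AnalyticAt ℂ (fun w : ℂ => (Δ (ofComplex w))⁻¹) (z : ℂ) :=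
    (jf_analyticAt jf_disc_mdiff z).inv (by simpa using discriminant_ne_zero z)
  refine ⟨h1, h1.analyticOrderAt_eq_zero.mpr ?_⟩
  simpa using discriminant_ne_zero z

/-- at a zero of `E₄`, `j` vanishes to order 3 -/
theorem jFun_order_of_E4 (z : ℍ) (h4 : E₄ z = 0) :
    analyticOrderAt (fun w : ℂ => jFun (ofComplex w)) (z : ℂ) = 3 := by
  have h : (fun w : ℂ => jFun (ofComplex w)) =
      (E₄ ∘ ofComplex) ^ 3 * (fun w : ℂ => (Δ (ofComplex w))⁻¹) := by
    ext w
    simp [jFun, div_eq_mul_inv]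
  have ha := jf_analyticAt (ModularFormClass.holo E₄) z
  rw [h, analyticOrderAt_mul (ha.pow 3) (jf_order_inv_disc z).1, (jf_order_inv_disc z).2,
    analyticOrderAt_pow ha, jf_order_E4 z h4]
  rfl

/-- at a zero of `E₆`, `j - 1728` vanishes to order 2 -/
theorem jFun_order_of_E6 (z : ℍ) (h6 : E₆ z = 0) :
    analyticOrderAt (fun w : ℂ => jFun (ofComplex w) - 1728) (z : ℂ) = 2 := by
  have h : (fun w : ℂ => jFun (ofComplex w) - 1728) =
      (E₆ ∘ ofComplex) ^ 2 * (fun w : ℂ => (Δ (ofComplex w))⁻¹) := by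
    ext w
    simp [jFun_sub_1728, div_eq_mul_inv]
  have ha := jf_analyticAt (ModularFormClass.holo E₆) z
  rw [h, analyticOrderAt_mul (ha.pow 2) (jf_order_inv_disc z).1, (jf_order_inv_disc z).2,
    analyticOrderAt_pow ha, jf_order_E6 z h6]
  rfl

theorem jFun_eq_zero_iff (z : ℍ) : jFun z = 0 ↔ E₄ z = 0 := by
  simp [jFun, discriminant_ne_zero z]

theorem jFun_eq_1728_iff (z : ℍ) : jFun z = 1728 ↔ E₆ z = 0 := by
  rw [← sub_eq_zero, jFun_sub_1728]
  simp [discriminant_ne_zero z]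

/-- generic zeros of `E₄³ - wΔ` are simple -/
theorem jfForm_order_generic (z : ℍ) (h4 : E₄ z ≠ 0) (h6 : E₆ z ≠ 0) :
    analyticOrderAt (jfForm (jFun z) ∘ ofComplex) (z : ℂ) = 1 := by
  have h : (jfForm (jFun z) ∘ ofComplex) =
      (Δ ∘ ofComplex) * (fun w : ℂ => jFun (ofComplex w) - jFun z) := by
    ext w
    simp [jfForm_eq]
  have ha := jf_analyticAt jf_disc_mdiff z
  have hb : AnalyticAt ℂ (fun w : ℂ => jFun (ofComplex w) - jFun z) (z : ℂ) :=
    (jf_analyticAt jFun_mdiff z).sub analyticAt_const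
  have h0 : analyticOrderAt (Δ ∘ ofComplex) (z : ℂ) = 0 :=
    ha.analyticOrderAt_eq_zero.mpr (by simpa using discriminant_ne_zero z)
  rw [h, analyticOrderAt_mul ha hb, h0, jFun_order_generic z h4 h6, zero_add]

/-! ### The elliptic points -/

theorem jf_S_smul_I : ModularGroup.S • UpperHalfPlane.I = UpperHalfPlane.I := by
  rw [UpperHalfPlane.ext_iff, coe_specialLinearGroup_apply]
  simp [ModularGroup.S]

theorem jf_denom_S (z : ℍ) : denom ModularGroup.S z = z := ModularGroup.denom_S z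

theorem jf_E6_I : E₆ UpperHalfPlane.I = 0 := by
  have h := jf_smul_eq E₆ ModularGroup.S UpperHalfPlane.I
  rw [jf_S_smul_I, jf_denom_S] at h
  have e : ((UpperHalfPlane.I : ℍ) : ℂ) ^ (6 : ℤ) = -1 := by
    rw [zpow_ofNat, UpperHalfPlane.coe_I]
    have : (I : ℂ) ^ 6 = (I ^ 2) ^ 3 := by ring
    rw [this, I_sq]; norm_num
  rw [e] at h
  have h2 : (2 : ℂ) * E₆ UpperHalfPlane.I = 0 := by linear_combination h
  simpa using h2

/-- `ρ = e^{2πi/3}` -/
noncomputable def jfRho : ℍ := ⟨-1 / 2 + (Real.sqrt 3 / 2 : ℝ) * I, by simp⟩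

theorem jfRho_coe : (jfRho : ℂ) = -1 / 2 + (Real.sqrt 3 / 2 : ℝ) * I := rfl

theorem jfRho_sq : (jfRho : ℂ) ^ 2 + jfRho + 1 = 0 := by
  rw [jfRho_coe]
  have h3 : ((Real.sqrt 3 : ℝ) : ℂ) ^ 2 = 3 := by
    rw [← ofReal_pow, Real.sq_sqrt (by norm_num)]; norm_num
  push_cast
  ring_nf
  rw [I_sq, h3]
  ring

theorem jfRho_add_one_ne : (jfRho : ℂ) + 1 ≠ 0 := by
  intro h0
  have h := jfRho_sq
  have : (jfRho : ℂ) ^ 2 = 0 := by linear_combination h - h0
  have h1 : (jfRho : ℂ) = 0 := by simpa using this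
  rw [h1] at h0
  simp at h0

theorem jf_T_smul_coe (z : ℍ) : ((ModularGroup.T • z : ℍ) : ℂ) = z + 1 := by
  rw [modular_T_smul, coe_vadd]
  push_cast
  ring

theorem jf_U_smul_rho : (ModularGroup.S * ModularGroup.T) • jfRho = jfRho := by
  rw [mul_smul, UpperHalfPlane.ext_iff, modular_S_smul, UpperHalfPlane.coe_mk, jf_T_smul_coe]
  have h := jfRho_sq
  have hne := jfRho_add_one_ne
  rw [inv_eq_iff_eq_inv, eq_comm, inv_eq_iff_eq_inv, eq_comm]
  field_simp
  linear_combination (-1 : ℂ) * h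

theorem jf_E4_rho : E₄ jfRho = 0 := by
  have h1 := jf_smul_eq E₄ ModularGroup.S (ModularGroup.T • jfRho)
  have h2 := jf_smul_eq E₄ ModularGroup.T jfRho
  rw [← mul_smul, jf_U_smul_rho, jf_denom_S, jf_T_smul_coe, h2] at h1
  have hT : denom ModularGroup.T jfRho = 1 := by
    rw [ModularGroup.denom_apply]
    simp [ModularGroup.T]
  rw [hT, one_zpow, one_mul, zpow_ofNat] at h1
  have h := jfRho_sq
  -- `(ρ+1)^4 = ρ^2`, `1 - ρ^2 ≠ 0`
  have e : ((jfRho : ℂ) + 1) ^ 4 = -(jfRho : ℂ) - 1 := by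
    linear_combination ((jfRho : ℂ) ^ 2 + 3 * jfRho + 2) * h
  rw [e] at h1
  have h3 : ((jfRho : ℂ) + 2) * E₄ jfRho = 0 := by linear_combination h1
  rcases mul_eq_zero.mp h3 with h4 | h4
  · exfalso
    have : (jfRho : ℂ) = -2 := by linear_combination h4
    rw [this] at h
    norm_num at h
  · exact h4

theorem jFun_I : jFun UpperHalfPlane.I = 1728 := (jFun_eq_1728_iff _).mpr jf_E6_I

theorem jFun_rho : jFun jfRho = 0 := (jFun_eq_zero_iff _).mpr jf_E4_rho

end Fermat.Agent.X0
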