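import Mathlib
import Fermat.Prelude.Def_ModularCurve_GenusNumerics

/-!
# The projective line over `ℤ/N` as a model of `SL(2,ℤ) ⧸ Γ₀(N)`
-/

set_option autoImplicit false

namespace Fermat.Agent.X0

open Matrix.SpecialLinearGroup CongruenceSubgroup
open scoped MatrixGroups

/-- the coset space, with its left action of `SL(2,ℤ)` -/
abbrev Cos (N : ℕ) : Type := SL(2, ℤ) ⧸ (Gamma0 N)

/-- unimodular pairs (column vectors `(a, c)`) over a commutative ring -/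
def Uni (R : Type) [CommRing R] : Type := {v : R × R // IsCoprime v.1 v.2}

variable {R : Type} [CommRing R]

@[ext] lemma Uni.ext {v w : Uni R} (h1 : v.1.1 = w.1.1) (h2 : v.1.2 = w.1.2) : v = w :=
  Subtype.ext (Prod.ext h1 h2)

/-- scaling by units -/
instance : MulAction Rˣ (Uni R) where
  smul u v := ⟨((u : R) * v.1.1, (u : R) * v.1.2),
    (isCoprime_mul_unit_left u.isUnit v.1.1 v.1.2).mpr v.2⟩
  one_smul v := Uni.ext (one_mul _) (one_mul _)
  mul_smul u u' v := Uni.ext (by change ((u * u' : Rˣ) : R) * _ = (u : R) * ((u' : R) * _)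
                                 rw [Units.val_mul, mul_assoc])
    (by change ((u * u' : Rˣ) : R) * _ = (u : R) * ((u' : R) * _)
        rw [Units.val_mul, mul_assoc])

@[simp] lemma Uni.units_smul_fst (u : Rˣ) (v : Uni R) : (u • v).1.1 = (u : R) * v.1.1 := rfl
@[simp] lemma Uni.units_smul_snd (u : Rˣ) (v : Uni R) : (u • v).1.2 = (u : R) * v.1.2 := rfl

lemma sl2_det_cast (g : SL(2, ℤ)) :
    ((g 0 0 : ℤ) : R) * ((g 1 1 : ℤ) : R) - ((g 0 1 : ℤ) : R) * ((g 1 0 : ℤ) : R) = 1 := by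
  have := g.det_coe
  rw [Matrix.det_fin_two] at this
  exact_mod_cast congrArg (Int.cast : ℤ → R) this

/-- matrix action on column vectors -/
instance : MulAction SL(2, ℤ) (Uni R) where
  smul g v := ⟨(((g 0 0 : ℤ) : R) * v.1.1 + ((g 0 1 : ℤ) : R) * v.1.2,
      ((g 1 0 : ℤ) : R) * v.1.1 + ((g 1 1 : ℤ) : R) * v.1.2), by
    obtain ⟨x, y, hxy⟩ := v.2
    refine ⟨x * ((g 1 1 : ℤ) : R) - y * ((g 1 0 : ℤ) : R),
      -x * ((g 0 1 : ℤ) : R) + y * ((g 0 0 : ℤ) : R), ?_⟩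
    have hd := sl2_det_cast (R := R) g
    linear_combination (x * v.1.1 + y * v.1.2) * hd + hxy⟩
  one_smul v := Uni.ext (by change ((((1 : SL(2, ℤ)) 0 0 : ℤ) : R) * _ + (((1 : SL(2, ℤ)) 0 1 : ℤ) : R) * _ = _); simp)
    (by change ((((1 : SL(2, ℤ)) 1 0 : ℤ) : R) * _ + (((1 : SL(2, ℤ)) 1 1 : ℤ) : R) * _ = _); simp)
  mul_smul g h v := Uni.ext
    (by
      change ((((g * h : SL(2, ℤ)) 0 0 : ℤ) : R) * _ + (((g * h : SL(2, ℤ)) 0 1 : ℤ) : R) * _ =
        ((g 0 0 : ℤ) : R) * (((h 0 0 : ℤ) : R) * _ + ((h 0 1 : ℤ) : R) * _) +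
        ((g 0 1 : ℤ) : R) * (((h 1 0 : ℤ) : R) * _ + ((h 1 1 : ℤ) : R) * _))
      simp only [Matrix.SpecialLinearGroup.coe_mul, Matrix.mul_apply, Fin.sum_univ_two]
      push_cast
      ring)
    (by
      change ((((g * h : SL(2, ℤ)) 1 0 : ℤ) : R) * _ + (((g * h : SL(2, ℤ)) 1 1 : ℤ) : R) * _ =
        ((g 1 0 : ℤ) : R) * (((h 0 0 : ℤ) : R) * _ + ((h 0 1 : ℤ) : R) * _) +
        ((g 1 1 : ℤ) : R) * (((h 1 0 : ℤ) : R) * _ + ((h 1 1 : ℤ) : R) * _))
      simp only [Matrix.SpecialLinearGroup.coe_mul, Matrix.mul_apply, Fin.sum_univ_two]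
      push_cast
      ring)

@[simp] lemma Uni.sl_smul_fst (g : SL(2, ℤ)) (v : Uni R) :
    (g • v).1.1 = ((g 0 0 : ℤ) : R) * v.1.1 + ((g 0 1 : ℤ) : R) * v.1.2 := rfl
@[simp] lemma Uni.sl_smul_snd (g : SL(2, ℤ)) (v : Uni R) :
    (g • v).1.2 = ((g 1 0 : ℤ) : R) * v.1.1 + ((g 1 1 : ℤ) : R) * v.1.2 := rfl

instance : SMulCommClass SL(2, ℤ) Rˣ (Uni R) where
  smul_comm g u v := Uni.ext (by simp; ring) (by simp; ring)

/-- the projective line over `R`: unimodular pairs modulo units -/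
def P1 (R : Type) [CommRing R] : Type := MulAction.orbitRel.Quotient Rˣ (Uni R)

/-- the class `(a : c)` of a unimodular pair -/
def P1.mk (v : Uni R) : P1 R := Quotient.mk'' v

lemma P1.mk_eq_mk {v w : Uni R} : P1.mk v = P1.mk w ↔ ∃ u : Rˣ, u • w = v := by
  have h : (Quotient.mk'' v : Quotient (MulAction.orbitRel Rˣ (Uni R))) = Quotient.mk'' w ↔
      ∃ u : Rˣ, u • w = v := by
    rw [Quotient.eq'']
    exact MulAction.orbitRel_apply
  exact h

lemma P1.mk_surjective : Function.Surjective (P1.mk : Uni R → P1 R) := Quotient.mk''_surjective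

instance : MulAction SL(2, ℤ) (P1 R) where
  smul g := Quotient.map' (fun v => g • v) (by
    rintro v w ⟨u, rfl⟩
    exact ⟨u, (smul_comm g u w).symm⟩)
  one_smul x := by
    obtain ⟨v, rfl⟩ := P1.mk_surjective x
    change P1.mk ((1 : SL(2, ℤ)) • v) = _
    rw [one_smul]
  mul_smul g h x := by
    obtain ⟨v, rfl⟩ := P1.mk_surjective x
    change P1.mk ((g * h) • v) = P1.mk (g • h • v)
    rw [mul_smul]

@[simp] lemma P1.smul_mk (g : SL(2, ℤ)) (v : Uni R) : g • P1.mk v = P1.mk (g • v) := rfl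

/-- the first column of a matrix -/
def colOne (R : Type) [CommRing R] (g : SL(2, ℤ)) : Uni R :=
  ⟨(((g 0 0 : ℤ) : R), ((g 1 0 : ℤ) : R)), ⟨((g 1 1 : ℤ) : R), -((g 0 1 : ℤ) : R), by
    have hd := sl2_det_cast (R := R) g
    linear_combination hd⟩⟩

@[simp] lemma colOne_fst (g : SL(2, ℤ)) : (colOne R g).1.1 = ((g 0 0 : ℤ) : R) := rfl
@[simp] lemma colOne_snd (g : SL(2, ℤ)) : (colOne R g).1.2 = ((g 1 0 : ℤ) : R) := rfl

lemma colOne_mul (g h : SL(2, ℤ)) : colOne R (g * h) = g • colOne R h := by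
  ext <;> simp [Matrix.SpecialLinearGroup.coe_mul, Matrix.mul_apply, Fin.sum_univ_two]

/-- elementary lemma: if no prime divides `a`, `c` and `N`, and `c ≠ 0`, then `a + t N` is coprime
to `c` for a suitable `t`. -/
lemma exists_isCoprime_add_mul (a c N : ℤ) (hc : c ≠ 0)
    (h : ∀ p : ℕ, p.Prime → (p : ℤ) ∣ a → (p : ℤ) ∣ c → ¬ (p : ℤ) ∣ N) :
    ∃ t : ℤ, IsCoprime (a + t * N) c := by
  classical
  set s : Finset ℕ := c.natAbs.primeFactors.filter (fun p => ¬ (p : ℤ) ∣ a) with hs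
  refine ⟨((∏ p ∈ s, p : ℕ) : ℤ), ?_⟩
  rw [Int.isCoprime_iff_gcd_eq_one]
  by_contra hne
  obtain ⟨p, hp, hpd⟩ := Nat.exists_prime_and_dvd hne
  have hpa : (p : ℤ) ∣ a + ((∏ p ∈ s, p : ℕ) : ℤ) * N :=
    (Int.natCast_dvd_natCast.mpr hpd).trans (Int.gcd_dvd_left ..)
  have hpc : (p : ℤ) ∣ c := (Int.natCast_dvd_natCast.mpr hpd).trans (Int.gcd_dvd_right ..)
  have hpZ : Prime (p : ℤ) := Nat.prime_iff_prime_int.mp hp
  by_cases hpa0 : (p : ℤ) ∣ a
  · have h1 : (p : ℤ) ∣ ((∏ p ∈ s, p : ℕ) : ℤ) * N := (Int.dvd_add_right hpa0).mp hpa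
    rcases hpZ.dvd_or_dvd h1 with h2 | h2
    · have h3 : p ∣ ∏ q ∈ s, q := Int.natCast_dvd_natCast.mp h2
      obtain ⟨q, hq, hpq⟩ := (Prime.dvd_finsetProd_iff (Nat.prime_iff.mp hp) _).mp h3
      rw [hs, Finset.mem_filter] at hq
      have hqp : q.Prime := Nat.prime_of_mem_primeFactors hq.1
      have : p = q := (Nat.prime_dvd_prime_iff_eq hp hqp).mp hpq
      exact hq.2 (this ▸ hpa0)
    · exact h p hp hpa0 hpc h2
  · have hmem : p ∈ s := by
      rw [hs, Finset.mem_filter]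
      refine ⟨Nat.mem_primeFactors.mpr ⟨hp, Int.natCast_dvd.mp hpc, by simpa using hc⟩, hpa0⟩
    have h1 : (p : ℤ) ∣ ((∏ p ∈ s, p : ℕ) : ℤ) * N :=
      Dvd.dvd.mul_right (Int.natCast_dvd_natCast.mpr (Finset.dvd_prod_of_mem _ hmem)) _
    exact hpa0 ((Int.dvd_add_left h1).mp hpa)

/-- every unimodular pair mod `N` is the first column of an element of `SL(2,ℤ)` -/
lemma exists_colOne_eq (N : ℕ) [NeZero N] (v : Uni (ZMod N)) :
    ∃ g : SL(2, ℤ), colOne (ZMod N) g = v := by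
  obtain ⟨x, y, hxy⟩ := v.2
  obtain ⟨a, ha⟩ := ZMod.intCast_surjective v.1.1
  obtain ⟨c0, hc0⟩ := ZMod.intCast_surjective v.1.2
  obtain ⟨X, hX⟩ := ZMod.intCast_surjective x
  obtain ⟨Y, hY⟩ := ZMod.intCast_surjective y
  have hN : (N : ℤ) ≠ 0 := by exact_mod_cast NeZero.ne N
  obtain ⟨c, hc, hcne⟩ : ∃ c : ℤ, ((c : ℤ) : ZMod N) = v.1.2 ∧ c ≠ 0 := by
    by_cases h0 : c0 = 0
    · exact ⟨N, by rw [← hc0, h0]; simp, hN⟩
    · exact ⟨c0, hc0, h0⟩
  have hdvd : (N : ℤ) ∣ X * a + Y * c - 1 := by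
    rw [← ZMod.intCast_zmod_eq_zero_iff_dvd]
    push_cast
    rw [hX, hY, ha, hc, hxy, sub_self]
  obtain ⟨t, ht⟩ := exists_isCoprime_add_mul a c N hcne (by
    intro p hp hpa hpc hpN
    have h1 : (p : ℤ) ∣ X * a + Y * c - 1 := hpN.trans hdvd
    have h2 : (p : ℤ) ∣ X * a + Y * c := (hpa.mul_left X).add (hpc.mul_left Y)
    have h3 : (p : ℤ) ∣ 1 := by
      have := Int.dvd_sub h2 h1
      simpa using this
    exact (Nat.prime_iff_prime_int.mp hp).not_dvd_one h3)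
  obtain ⟨g, hg0, hg1⟩ := ht.exists_SL2_col 0
  refine ⟨g, ?_⟩
  ext
  · rw [colOne_fst, hg0]
    push_cast
    rw [ha]; simp
  · rw [colOne_snd, hg1, hc]

lemma mem_Gamma0_iff_mk_colOne (N : ℕ) (g : SL(2, ℤ)) :
    g ∈ Gamma0 N ↔ P1.mk (colOne (ZMod N) g) = P1.mk (colOne (ZMod N) 1) := by
  rw [Gamma0_mem, P1.mk_eq_mk]
  constructor
  · intro h
    have hd := sl2_det_cast (R := ZMod N) g
    rw [h, mul_zero, sub_zero] at hd
    refine ⟨⟨_, _, hd, by rw [mul_comm]; exact hd⟩, ?_⟩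
    ext
    · simp
    · simp [h]
  · rintro ⟨u, hu⟩
    have := congrArg (fun v : Uni (ZMod N) => v.1.2) hu
    simpa using this.symm

/-- the map `g Γ₀(N) ↦ (g₀₀ : g₁₀)` -/
def cosToP1 (N : ℕ) : Cos N → P1 (ZMod N) :=
  fun x => Quotient.liftOn' x (fun g => P1.mk (colOne (ZMod N) g)) (by
    intro g h hgh
    rw [QuotientGroup.leftRel_apply, mem_Gamma0_iff_mk_colOne] at hgh
    have := congrArg (fun x => g • x) hgh
    simp only [P1.smul_mk, ← colOne_mul, mul_inv_cancel_left, mul_one] at this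
    exact this.symm)

@[simp] lemma cosToP1_mk (N : ℕ) (g : SL(2, ℤ)) :
    cosToP1 N (QuotientGroup.mk g) = P1.mk (colOne (ZMod N) g) := rfl

lemma cosToP1_smul (N : ℕ) (g : SL(2, ℤ)) (x : Cos N) : cosToP1 N (g • x) = g • cosToP1 N x := by
  obtain ⟨h, rfl⟩ := QuotientGroup.mk_surjective x
  rw [MulAction.Quotient.smul_mk, cosToP1_mk, cosToP1_mk, P1.smul_mk, smul_eq_mul, colOne_mul]

lemma cosToP1_injective (N : ℕ) : Function.Injective (cosToP1 N) := by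
  intro x y hxy
  obtain ⟨g, rfl⟩ := QuotientGroup.mk_surjective x
  obtain ⟨h, rfl⟩ := QuotientGroup.mk_surjective y
  rw [cosToP1_mk, cosToP1_mk] at hxy
  rw [QuotientGroup.eq, mem_Gamma0_iff_mk_colOne]
  have := congrArg (fun x => g⁻¹ • x) hxy
  simp only [P1.smul_mk, ← colOne_mul, inv_mul_cancel] at this
  exact this.symm

lemma cosToP1_surjective (N : ℕ) [NeZero N] : Function.Surjective (cosToP1 N) := by
  intro x
  obtain ⟨v, rfl⟩ := P1.mk_surjective x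
  obtain ⟨g, rfl⟩ := exists_colOne_eq N v
  exact ⟨QuotientGroup.mk g, rfl⟩

/-- the equivariant bijection `SL(2,ℤ) ⧸ Γ₀(N) ≃ ℙ¹(ℤ/N)` -/
noncomputable def cosEquiv (N : ℕ) [NeZero N] : Cos N ≃ P1 (ZMod N) :=
  Equiv.ofBijective (cosToP1 N) ⟨cosToP1_injective N, cosToP1_surjective N⟩

@[simp] lemma cosEquiv_mk (N : ℕ) [NeZero N] (g : SL(2, ℤ)) :
    cosEquiv N (QuotientGroup.mk g) = P1.mk (colOne (ZMod N) g) := rfl

lemma cosEquiv_smul (N : ℕ) [NeZero N] (g : SL(2, ℤ)) (x : Cos N) :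
    cosEquiv N (g • x) = g • cosEquiv N x := cosToP1_smul N g x

end Fermat.Agent.X0
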