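import Mathlib

/-!
# Counting orbits of an element whose `p`-th power acts trivially
-/

set_option autoImplicit false

namespace Fermat.Agent.X0

open MulAction Subgroup Function

variable {G X : Type*} [Group G] [MulAction G X]

lemma orbits_card_orbit (g : G) (x : X) :
    Nat.card (orbit (zpowers g) x) = minimalPeriod (g • ·) x := by
  rw [Nat.card_congr (orbitZPowersEquiv g x), Nat.card_zmod]

lemma orbits_minimalPeriod_dvd (g : G) (p : ℕ) (h : ∀ x : X, g ^ p • x = x) (x : X) :
    minimalPeriod (g • ·) x ∣ p := by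
  apply IsPeriodicPt.minimalPeriod_dvd
  rw [IsPeriodicPt, IsFixedPt, smul_iterate]
  exact h x

/-- If `g ^ p` acts trivially (`p` prime) then `p * #orbits = #X + (p - 1) * #Fix(g)`. -/
theorem orbits_card_of_pow_prime [Finite X] (g : G) (p : ℕ) (hp : p.Prime)
    (h : ∀ x : X, g ^ p • x = x) :
    p * Nat.card (orbitRel.Quotient (zpowers g) X) =
      Nat.card X + (p - 1) * Nat.card {x : X // g • x = x} := by
  classical
  set Ω := orbitRel.Quotient (zpowers g) X with hΩ
  have : Finite Ω := Quotient.finite _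
  let _ : Fintype Ω := Fintype.ofFinite Ω
  have hcard : ∀ ω : Ω, Nat.card ω.orbit = 1 ∨ Nat.card ω.orbit = p := by
    intro ω
    induction ω using Quotient.inductionOn' with
    | h x =>
      rw [orbitRel.Quotient.orbit_mk, orbits_card_orbit]
      exact (Nat.dvd_prime hp).mp (orbits_minimalPeriod_dvd g p h x)
  have hX : Nat.card X = ∑ ω : Ω, Nat.card ω.orbit := by
    rw [Nat.card_congr (selfEquivSigmaOrbits' (zpowers g) X), Nat.card_sigma]
  -- the fixed points
  have hfix : Nat.card {x : X // g • x = x} = Nat.card {ω : Ω // Nat.card ω.orbit = 1} := by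
    refine Nat.card_congr (Equiv.ofBijective
      (fun x => ⟨(Quotient.mk'' x.1 : Ω), ?_⟩) ⟨?_, ?_⟩)
    · rw [orbitRel.Quotient.orbit_mk, orbits_card_orbit, minimalPeriod_eq_one_iff_isFixedPt]
      exact x.2
    · intro x y hxy
      have h1 : (Quotient.mk'' x.1 : Ω) = Quotient.mk'' y.1 := congrArg Subtype.val hxy
      rw [Quotient.eq'', orbitRel_apply] at h1
      obtain ⟨⟨_, k, rfl⟩, hk⟩ := h1
      have h2 : ∀ k : ℤ, g ^ k • y.1 = y.1 := fun k => by
        have : g ∈ stabilizer G y.1 := y.2
        exact (stabilizer G y.1).zpow_mem this k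
      apply Subtype.ext
      rw [← hk]
      exact h2 k
    · rintro ⟨ω, hω⟩
      induction ω using Quotient.inductionOn' with
      | h x =>
        rw [orbitRel.Quotient.orbit_mk, orbits_card_orbit, minimalPeriod_eq_one_iff_isFixedPt] at hω
        exact ⟨⟨x, hω⟩, rfl⟩
  have hsum : ∑ ω : Ω, Nat.card ω.orbit
      = ∑ ω : Ω, (if Nat.card ω.orbit = 1 then 1 else p) := by
    refine Finset.sum_congr rfl fun ω _ => ?_
    rcases hcard ω with h1 | h1
    · rw [if_pos h1, h1]
    · rw [if_neg (by rw [h1]; exact hp.one_lt.ne'), h1]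
  rw [hX, hsum, hfix, Finset.sum_ite, Finset.sum_const, Finset.sum_const, smul_eq_mul, smul_eq_mul,
    mul_one, Nat.card_eq_fintype_card, Nat.card_eq_fintype_card, Fintype.card_subtype]
  have hpart := Finset.card_filter_add_card_filter_not (s := (Finset.univ : Finset Ω))
    (fun ω => Nat.card ω.orbit = 1)
  rw [Finset.card_univ] at hpart
  set A := (Finset.univ.filter fun ω : Ω => Nat.card ω.orbit = 1).card
  set B := (Finset.univ.filter fun ω : Ω => ¬ Nat.card ω.orbit = 1).card
  rw [← hpart]
  obtain ⟨q, rfl⟩ : ∃ q, p = q + 1 := ⟨p - 1, by have := hp.pos; omega⟩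
  simp only [Nat.add_sub_cancel]
  ring

end Fermat.Agent.X0
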