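import Fermat.Agent.X0.CardP1
import Fermat.Agent.X0.Orbits

/-!
# Combinatorics of `SL(2,ℤ) ⧸ Γ₀(N)`: fixed points and orbits of `S` and `U = S T`
-/

set_option autoImplicit false

namespace Fermat.Agent.X0

open Matrix.SpecialLinearGroup CongruenceSubgroup ModularCurve
open scoped MatrixGroups

/-- `U = S * T`, of order 3 in `PSL(2,ℤ)` -/
def Umat : SL(2, ℤ) := ModularGroup.S * ModularGroup.T

variable (N : ℕ) [NeZero N]

instance : Finite (Uni (ZMod N)) := Subtype.finite

instance : Finite (P1 (ZMod N)) := Quotient.finite _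

instance : Finite (Cos N) := Finite.of_equiv _ (cosEquiv N).symm

section entries

variable {R : Type} [CommRing R]

lemma S_smul_fst (v : Uni R) : (ModularGroup.S • v).1.1 = -v.1.2 := by
  rw [Uni.sl_smul_fst]; simp [ModularGroup.S]

lemma S_smul_snd (v : Uni R) : (ModularGroup.S • v).1.2 = v.1.1 := by
  rw [Uni.sl_smul_snd]; simp [ModularGroup.S]

lemma T_smul_fst (v : Uni R) : (ModularGroup.T • v).1.1 = v.1.1 + v.1.2 := by
  rw [Uni.sl_smul_fst]; simp [ModularGroup.T]

lemma T_smul_snd (v : Uni R) : (ModularGroup.T • v).1.2 = v.1.2 := by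
  rw [Uni.sl_smul_snd]; simp [ModularGroup.T]

lemma Umat_smul_fst (v : Uni R) : (Umat • v).1.1 = -v.1.2 := by
  rw [Umat, mul_smul, S_smul_fst, T_smul_snd]

lemma Umat_smul_snd (v : Uni R) : (Umat • v).1.2 = v.1.1 + v.1.2 := by
  rw [Umat, mul_smul, S_smul_snd, T_smul_fst]

end entries

/-- fixed points transported to `ℙ¹` -/
noncomputable def fixedEquiv (g : SL(2, ℤ)) :
    {x : Cos N // g • x = x} ≃ {y : P1 (ZMod N) // g • y = y} :=
  (cosEquiv N).subtypeEquiv fun x => by
    rw [← cosEquiv_smul, (cosEquiv N).injective.eq_iff]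

section fixedS

variable {R : Type} [CommRing R]

/-- the point `(x : 1)` -/
def ptOne (x : R) : Uni R := ⟨(x, 1), isCoprime_one_right⟩

/-- the point `(1 : x)` -/
def onePt (x : R) : Uni R := ⟨(1, x), isCoprime_one_left⟩

@[simp] lemma ptOne_fst (x : R) : (ptOne x).1.1 = x := rfl
@[simp] lemma ptOne_snd (x : R) : (ptOne x).1.2 = 1 := rfl
@[simp] lemma onePt_fst (x : R) : (onePt x).1.1 = 1 := rfl
@[simp] lemma onePt_snd (x : R) : (onePt x).1.2 = x := rfl

lemma fixedS_aux (x : R) (hx : x ^ 2 + 1 = 0) :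
    ModularGroup.S • P1.mk (ptOne x) = P1.mk (ptOne x) := by
  rw [P1.smul_mk, P1.mk_eq_mk]
  refine ⟨⟨x, -x, by linear_combination -hx, by linear_combination -hx⟩, ?_⟩
  ext
  · rw [S_smul_fst, Uni.units_smul_fst, ptOne_fst, ptOne_snd]
    change x * x = -1
    linear_combination hx
  · rw [S_smul_snd, Uni.units_smul_snd, ptOne_fst, ptOne_snd]
    change x * 1 = x
    rw [mul_one]

/-- fixed points of `S` on `ℙ¹(R)` -/
noncomputable def fixedSEquiv :
    {x : R // x ^ 2 + 1 = 0} ≃ {y : P1 R // ModularGroup.S • y = y} :=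
  Equiv.ofBijective (fun x => ⟨P1.mk (ptOne x.1), fixedS_aux x.1 x.2⟩) (by
    constructor
    · intro x y hxy
      have h1 : P1.mk (ptOne x.1) = P1.mk (ptOne y.1) := congrArg Subtype.val hxy
      obtain ⟨u, hu⟩ := P1.mk_eq_mk.mp h1
      have h2 : (u : R) * 1 = 1 := by
        have := congrArg (fun v : Uni R => v.1.2) hu
        simpa only [Uni.units_smul_snd, ptOne_snd] using this
      have h3 : (u : R) * y.1 = x.1 := by
        have := congrArg (fun v : Uni R => v.1.1) hu
        simpa only [Uni.units_smul_fst, ptOne_fst] using this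
      apply Subtype.ext
      rw [mul_one] at h2
      rw [← h3, h2, one_mul]
    · rintro ⟨y, hy⟩
      obtain ⟨v, rfl⟩ := P1.mk_surjective y
      rw [P1.smul_mk, P1.mk_eq_mk] at hy
      obtain ⟨u, hu⟩ := hy
      have h1 : (u : R) * v.1.1 = -v.1.2 := by
        have := congrArg (fun w : Uni R => w.1.1) hu
        simpa only [Uni.units_smul_fst, S_smul_fst] using this
      have h2 : (u : R) * v.1.2 = v.1.1 := by
        have := congrArg (fun w : Uni R => w.1.2) hu
        simpa only [Uni.units_smul_snd, S_smul_snd] using this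
      obtain ⟨a, b, hab⟩ := v.2
      -- `v.1.2` is a unit
      have hunit : (a * u + b) * v.1.2 = 1 := by linear_combination hab + a * h2
      let c : Rˣ := ⟨v.1.2, a * u + b, by rw [mul_comm]; exact hunit, hunit⟩
      have hc : (c : R) = v.1.2 := rfl
      have hsq : (u : R) ^ 2 + 1 = 0 := by
        have : ((u : R) ^ 2 + 1) * v.1.2 = 0 := by linear_combination (u : R) * h2 + h1
        calc (u : R) ^ 2 + 1 = ((u : R) ^ 2 + 1) * v.1.2 * (a * u + b) := by
              rw [mul_assoc, mul_comm v.1.2, hunit, mul_one]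
          _ = 0 := by rw [this, zero_mul]
      refine ⟨⟨u, hsq⟩, ?_⟩
      apply Subtype.ext
      change P1.mk (ptOne (u : R)) = P1.mk v
      rw [eq_comm, P1.mk_eq_mk]
      refine ⟨c, ?_⟩
      ext
      · rw [Uni.units_smul_fst, ptOne_fst, hc]; linear_combination h2
      · rw [Uni.units_smul_snd, ptOne_snd, hc, mul_one])

lemma fixedU_aux (x : R) (hx : x ^ 2 + x + 1 = 0) : Umat • P1.mk (onePt x) = P1.mk (onePt x) := by
  rw [P1.smul_mk, P1.mk_eq_mk]
  refine ⟨⟨-x, x + 1, by linear_combination -hx, by linear_combination -hx⟩, ?_⟩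
  ext
  · rw [Umat_smul_fst, Uni.units_smul_fst, onePt_fst, onePt_snd]
    change -x * 1 = -x
    rw [mul_one]
  · rw [Umat_smul_snd, Uni.units_smul_snd, onePt_fst, onePt_snd]
    change -x * x = 1 + x
    linear_combination -hx

/-- fixed points of `U` on `ℙ¹(R)` -/
noncomputable def fixedUEquiv :
    {x : R // x ^ 2 + x + 1 = 0} ≃ {y : P1 R // Umat • y = y} :=
  Equiv.ofBijective (fun x => ⟨P1.mk (onePt x.1), fixedU_aux x.1 x.2⟩) (by
    constructor
    · intro x y hxy
      have h1 : P1.mk (onePt x.1) = P1.mk (onePt y.1) := congrArg Subtype.val hxy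
      obtain ⟨u, hu⟩ := P1.mk_eq_mk.mp h1
      have h2 : (u : R) * y.1 = x.1 := by
        have := congrArg (fun v : Uni R => v.1.2) hu
        simpa only [Uni.units_smul_snd, onePt_snd] using this
      have h3 : (u : R) * 1 = 1 := by
        have := congrArg (fun v : Uni R => v.1.1) hu
        simpa only [Uni.units_smul_fst, onePt_fst] using this
      apply Subtype.ext
      rw [mul_one] at h3
      rw [← h2, h3, one_mul]
    · rintro ⟨y, hy⟩
      obtain ⟨v, rfl⟩ := P1.mk_surjective y
      rw [P1.smul_mk, P1.mk_eq_mk] at hy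
      obtain ⟨u, hu⟩ := hy
      have h1 : (u : R) * v.1.1 = -v.1.2 := by
        have := congrArg (fun w : Uni R => w.1.1) hu
        simpa only [Uni.units_smul_fst, Umat_smul_fst] using this
      have h2 : (u : R) * v.1.2 = v.1.1 + v.1.2 := by
        have := congrArg (fun w : Uni R => w.1.2) hu
        simpa only [Uni.units_smul_snd, Umat_smul_snd] using this
      obtain ⟨a, b, hab⟩ := v.2
      -- `v.1.1` is a unit
      have hunit : (a - b * u) * v.1.1 = 1 := by linear_combination hab - b * h1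
      let c : Rˣ := ⟨v.1.1, a - b * u, by rw [mul_comm]; exact hunit, hunit⟩
      have hc : (c : R) = v.1.1 := rfl
      have hsq : (-(u : R)) ^ 2 + (-(u : R)) + 1 = 0 := by
        have : ((-(u : R)) ^ 2 + (-(u : R)) + 1) * v.1.1 = 0 := by
          linear_combination (u : R) * h1 - h2 - h1
        calc (-(u : R)) ^ 2 + (-(u : R)) + 1
            = ((-(u : R)) ^ 2 + (-(u : R)) + 1) * v.1.1 * (a - b * u) := by
              rw [mul_assoc, mul_comm v.1.1, hunit, mul_one]
          _ = 0 := by rw [this, zero_mul]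
      refine ⟨⟨-u, hsq⟩, ?_⟩
      apply Subtype.ext
      change P1.mk (onePt (-(u : R))) = P1.mk v
      rw [eq_comm, P1.mk_eq_mk]
      refine ⟨c, ?_⟩
      ext
      · rw [Uni.units_smul_fst, onePt_fst, hc, mul_one]
      · rw [Uni.units_smul_snd, onePt_snd, hc]; linear_combination -h1)

end fixedS

theorem card_fixed_S :
    Nat.card {x : Cos N // ModularGroup.S • x = x} = nuTwo N :=
  Nat.card_congr ((fixedEquiv N _).trans fixedSEquiv.symm)

theorem card_fixed_U :
    Nat.card {x : Cos N // Umat • x = x} = nuThree N :=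
  Nat.card_congr ((fixedEquiv N _).trans fixedUEquiv.symm)

theorem card_cos : Nat.card (Cos N) = dedekindPsi N := by
  rw [Nat.card_congr (cosEquiv N), card_P1]

section trivialAction

variable {R : Type} [CommRing R]

lemma neg_one_smul_mk (v w : Uni R) (h1 : w.1.1 = -v.1.1) (h2 : w.1.2 = -v.1.2) :
    P1.mk w = P1.mk v := by
  rw [P1.mk_eq_mk]
  refine ⟨-1, ?_⟩
  ext
  · rw [Uni.units_smul_fst, h1]; simp
  · rw [Uni.units_smul_snd, h2]; simp

lemma S_sq_smul_P1 (y : P1 R) : ModularGroup.S ^ 2 • y = y := by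
  obtain ⟨v, rfl⟩ := P1.mk_surjective y
  rw [P1.smul_mk, pow_two, mul_smul]
  apply neg_one_smul_mk
  · rw [S_smul_fst, S_smul_snd]
  · rw [S_smul_snd, S_smul_fst]

lemma Umat_cube_smul_P1 (y : P1 R) : Umat ^ 3 • y = y := by
  obtain ⟨v, rfl⟩ := P1.mk_surjective y
  rw [P1.smul_mk, pow_succ, pow_two, mul_smul, mul_smul]
  apply neg_one_smul_mk
  · rw [Umat_smul_fst, Umat_smul_snd, Umat_smul_fst, Umat_smul_snd]; ring
  · rw [Umat_smul_snd, Umat_smul_fst, Umat_smul_snd, Umat_smul_snd, Umat_smul_fst,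
      Umat_smul_snd]; ring

end trivialAction

lemma S_sq_smul (x : Cos N) : ModularGroup.S ^ 2 • x = x := by
  apply (cosEquiv N).injective
  rw [cosEquiv_smul, S_sq_smul_P1]

lemma Umat_cube_smul (x : Cos N) : Umat ^ 3 • x = x := by
  apply (cosEquiv N).injective
  rw [cosEquiv_smul, Umat_cube_smul_P1]

theorem two_mul_card_orbits_S :
    2 * Nat.card (MulAction.orbitRel.Quotient (Subgroup.zpowers ModularGroup.S) (Cos N)) =
      dedekindPsi N + nuTwo N := by
  refine (orbits_card_of_pow_prime ModularGroup.S 2 Nat.prime_two (S_sq_smul N)).trans ?_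
  rw [card_cos, card_fixed_S]
  simp

theorem three_mul_card_orbits_U :
    3 * Nat.card (MulAction.orbitRel.Quotient (Subgroup.zpowers Umat) (Cos N)) =
      dedekindPsi N + 2 * nuThree N := by
  refine (orbits_card_of_pow_prime Umat 3 Nat.prime_three (Umat_cube_smul N)).trans ?_
  rw [card_cos, card_fixed_U]

end Fermat.Agent.X0
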