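import Mathlib
import Fermat.Agent.X0.P1

/-!
# The number of `⟨T⟩`-orbits on `SL(2,ℤ) ⧸ Γ₀(N)`
-/

set_option autoImplicit false
set_option linter.unusedSectionVars false
set_option linter.style.haveILetI false

namespace Fermat.Agent.X0

open Matrix.SpecialLinearGroup CongruenceSubgroup ModularCurve
open scoped MatrixGroups

variable (N : ℕ) [NeZero N]

/-- every element of `ℤ/N` is a unit times a divisor of `N` -/
lemma cusp_exists_unit_mul_eq (c : ZMod N) :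
    ∃ (u : (ZMod N)ˣ) (d : ℕ), d ∣ N ∧ (u : ZMod N) * c = (d : ZMod N) := by
  have hN : 0 < N := Nat.pos_of_ne_zero (NeZero.ne N)
  set c0 := c.val with hc0
  set d := Nat.gcd c0 N with hd
  have hdpos : 0 < d := Nat.gcd_pos_of_pos_right _ hN
  have hdN : d ∣ N := Nat.gcd_dvd_right _ _
  have hdc : d ∣ c0 := Nat.gcd_dvd_left _ _
  obtain ⟨c1, hc1⟩ := hdc
  obtain ⟨N1, hN1⟩ := hdN
  have hcop : Nat.Coprime c1 N1 := by
    have h := Nat.coprime_div_gcd_div_gcd (m := c0) (n := N) hdpos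
    rw [← hd] at h
    rwa [hc1, Nat.mul_div_cancel_left _ hdpos, show N / d = N1 by
      rw [hN1, Nat.mul_div_cancel_left _ hdpos]] at h
  obtain ⟨t, ht⟩ := exists_isCoprime_add_mul (c1 : ℤ) (N : ℤ) (N1 : ℤ) (by exact_mod_cast hN.ne')
    (by
      intro p hp h1 _ h3
      have h1' : p ∣ c1 := Int.natCast_dvd_natCast.mp h1
      have h3' : p ∣ N1 := Int.natCast_dvd_natCast.mp h3
      have := Nat.dvd_gcd h1' h3'
      rw [hcop] at this
      exact hp.one_lt.ne' (Nat.dvd_one.mp this))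
  have hunit : IsUnit (((c1 : ℤ) + t * N1 : ℤ) : ZMod N) :=
    (ZMod.coe_int_isUnit_iff_isCoprime _ _).mpr ht.symm
  obtain ⟨w, hw⟩ := hunit
  refine ⟨w⁻¹, d, ⟨N1, hN1⟩, ?_⟩
  have hc : c = (w : ZMod N) * (d : ZMod N) := by
    rw [hw]
    have e : (((c1 : ℤ) + t * N1 : ℤ) : ZMod N) * (d : ZMod N)
        = (((c0 : ℤ) + t * N : ℤ) : ZMod N) := by
      have hint : ((c1 : ℤ) + t * N1) * d = (c0 : ℤ) + t * N := by
        have h1 : (c0 : ℤ) = d * c1 := by exact_mod_cast hc1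
        have h2 : (N : ℤ) = d * N1 := by exact_mod_cast hN1
        rw [h1, h2]; ring
      exact_mod_cast congrArg (Int.cast : ℤ → ZMod N) hint
    rw [e]
    push_cast
    rw [ZMod.natCast_self, mul_zero, add_zero, hc0, ZMod.natCast_zmod_val]
  rw [hc, ← mul_assoc, Units.inv_mul, one_mul]

lemma cusp_normal_form (v : Uni (ZMod N)) :
    ∃ (u : (ZMod N)ˣ) (d : ℕ) (a : ℤ), d ∣ N ∧ IsCoprime a (d : ℤ) ∧
      (u • v).1.1 = (a : ZMod N) ∧ (u • v).1.2 = (d : ZMod N) := by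
  obtain ⟨u, d, hd, hu⟩ := cusp_exists_unit_mul_eq N v.1.2
  obtain ⟨a, ha⟩ := ZMod.intCast_surjective (u • v).1.1
  refine ⟨u, d, a, hd, ?_, ha.symm, hu⟩
  obtain ⟨x, y, hxy⟩ := (u • v).2
  obtain ⟨X, hX⟩ := ZMod.intCast_surjective x
  obtain ⟨Y, hY⟩ := ZMod.intCast_surjective y
  have h2 : (u • v).1.2 = (d : ZMod N) := hu
  have hdvd : (N : ℤ) ∣ X * a + Y * d - 1 := by
    rw [← ZMod.intCast_zmod_eq_zero_iff_dvd]
    push_cast
    rw [hX, hY, ha, ← h2, hxy, sub_self]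
  obtain ⟨k, hk⟩ := hdvd
  obtain ⟨m, hm⟩ := hd
  refine ⟨X, Y - m * k, ?_⟩
  have : (N : ℤ) = d * m := by exact_mod_cast hm
  rw [this] at hk
  linear_combination hk

lemma cusp_rel_of_dvd {d : ℕ} (hd : d ∣ N) {a a' : ℤ} (ha : IsCoprime a (d : ℤ))
    (ha' : IsCoprime a' (d : ℤ)) (h : ((Nat.gcd d (N / d) : ℕ) : ℤ) ∣ a - a') :
    ∃ (u : (ZMod N)ˣ) (n : ℤ), (u : ZMod N) * ((a : ZMod N) + n * d) = a' ∧
      (u : ZMod N) * d = d := by
  have hN : 0 < N := Nat.pos_of_ne_zero (NeZero.ne N)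
  obtain ⟨N1, hN1⟩ := hd
  have hdpos : 0 < d := Nat.pos_of_ne_zero (by rintro rfl; simp at hN1; omega)
  have hdiv : N / d = N1 := by rw [hN1, Nat.mul_div_cancel_left _ hdpos]
  rw [hdiv] at h
  set e : ℤ := ((Nat.gcd d N1 : ℕ) : ℤ) with he
  obtain ⟨x, y, hxy⟩ := ha
  -- `r * a ≡ a'` mod `d`
  set r : ℤ := a' * x with hr
  have hra : r * a = a' - a' * y * d := by rw [hr]; linear_combination a' * hxy
  have hed : e ∣ (d : ℤ) := Int.natCast_dvd_natCast.mpr (Nat.gcd_dvd_left _ _)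
  have hae : IsCoprime a e := by
    obtain ⟨m, hm⟩ := hed
    exact ⟨x, y * m, by rw [← hxy, hm]; ring⟩
  have hre : e ∣ r - 1 := by
    have h1 : e ∣ (r - 1) * a := by
      have : (r - 1) * a = -(a - a') - a' * y * d := by linear_combination hra
      rw [this]
      exact Int.dvd_sub (Int.dvd_neg.mpr h) (Dvd.dvd.mul_left hed _)
    exact hae.symm.dvd_of_dvd_mul_right h1
  obtain ⟨k, hk⟩ := hre
  -- Bezout
  have hbez : e = d * Int.gcdA d N1 + N1 * Int.gcdB d N1 := by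
    rw [he]
    exact Int.gcd_eq_gcd_ab d N1
  set s := Int.gcdB d N1
  set t := Int.gcdA d N1
  set u0 : ℤ := 1 + k * s * N1 with hu0
  have hu0r : u0 = r - k * t * d := by
    rw [hu0]
    linear_combination -hk - k * hbez
  have hcopN1 : IsCoprime u0 (N1 : ℤ) := ⟨1, -(k * s), by rw [hu0]; ring⟩
  have hcopr : IsCoprime r (d : ℤ) := by
    have h1 : IsCoprime (r * a) (d : ℤ) := by
      rw [hra]
      obtain ⟨x', y', hxy'⟩ := ha'
      exact ⟨x', y' + x' * a' * y, by linear_combination hxy'⟩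
    exact h1.of_mul_left_left
  have hcopd : IsCoprime u0 (d : ℤ) := by
    obtain ⟨x', y', hxy'⟩ := hcopr
    exact ⟨x', y' + x' * k * t, by rw [hu0r]; linear_combination hxy'⟩
  have hcopN : IsCoprime u0 (N : ℤ) := by
    have : (N : ℤ) = d * N1 := by exact_mod_cast hN1
    rw [this]
    exact hcopd.mul_right hcopN1
  obtain ⟨u, hu⟩ := (ZMod.coe_int_isUnit_iff_isCoprime u0 N).mpr hcopN.symm
  have hNcast : ((d : ZMod N)) * (N1 : ZMod N) = 0 := by
    rw [← Nat.cast_mul, ← hN1, ZMod.natCast_self]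
  have hud : (u : ZMod N) * d = d := by
    rw [hu, hu0]
    push_cast
    linear_combination (k * s : ZMod N) * hNcast
  -- `u0 * a - a' = d * m`
  have hm : u0 * a - a' = d * (-(a' * y) - k * t * a) := by
    rw [hu0r]; linear_combination hra
  refine ⟨u, -(-(a' * y) - k * t * a), ?_, hud⟩
  have hm' : (u : ZMod N) * (a : ZMod N) - a' = d * ((-(a' * y) - k * t * a : ℤ) : ZMod N) := by
    rw [hu]
    exact_mod_cast congrArg (Int.cast : ℤ → ZMod N) hm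
  have : (u : ZMod N) * ((a : ZMod N) + ((-(-(a' * y) - k * t * a) : ℤ) : ZMod N) * d)
      = (u : ZMod N) * a + ((-(-(a' * y) - k * t * a) : ℤ) : ZMod N) * ((u : ZMod N) * d) := by ring
  rw [this, hud]
  push_cast at hm' ⊢
  linear_combination hm'

omit [NeZero N] in
lemma cusp_dvd_of_unit_mul {d d' : ℕ} (hd : d ∣ N) (u : ZMod N)
    (h2 : u * d = d') : d ∣ d' := by
  obtain ⟨u0, hu0⟩ := ZMod.intCast_surjective u
  have h : (N : ℤ) ∣ u0 * d - d' := by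
    rw [← ZMod.intCast_zmod_eq_zero_iff_dvd]
    push_cast
    rw [hu0, h2, sub_self]
  have h3 : (d : ℤ) ∣ u0 * d - d' := (Int.natCast_dvd_natCast.mpr hd).trans h
  have h4 : (d : ℤ) ∣ d' := by
    have := Int.dvd_sub (Dvd.intro_left u0 rfl : (d : ℤ) ∣ u0 * d) h3
    simpa using this
  exact Int.natCast_dvd_natCast.mp h4

lemma cusp_eq_of_rel {d d' : ℕ} (hd : d ∣ N) (hd' : d' ∣ N) {a a' : ℤ} (u : (ZMod N)ˣ) (n : ℤ)
    (h1 : (u : ZMod N) * ((a : ZMod N) + n * d) = a') (h2 : (u : ZMod N) * d = d') :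
    d = d' ∧ ((Nat.gcd d (N / d) : ℕ) : ℤ) ∣ a - a' := by
  have hN : 0 < N := Nat.pos_of_ne_zero (NeZero.ne N)
  have e1 : d ∣ d' := cusp_dvd_of_unit_mul N hd _ h2
  have e2 : d' ∣ d := by
    apply cusp_dvd_of_unit_mul N hd' ((u⁻¹ : (ZMod N)ˣ) : ZMod N)
    rw [← h2, ← mul_assoc, Units.inv_mul, one_mul]
  have hdd : d = d' := Nat.dvd_antisymm e1 e2
  subst hdd
  refine ⟨rfl, ?_⟩
  obtain ⟨N1, hN1⟩ := hd
  have hdpos : 0 < d := Nat.pos_of_ne_zero (by rintro rfl; simp at hN1; omega)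
  have hdiv : N / d = N1 := by rw [hN1, Nat.mul_div_cancel_left _ hdpos]
  rw [hdiv]
  obtain ⟨u0, hu0⟩ := ZMod.intCast_surjective (u : ZMod N)
  have hNZ : (N : ℤ) = d * N1 := by exact_mod_cast hN1
  have h3 : (N : ℤ) ∣ (u0 - 1) * d := by
    rw [← ZMod.intCast_zmod_eq_zero_iff_dvd]
    push_cast
    rw [hu0, sub_mul, h2, one_mul, sub_self]
  have h4 : (N1 : ℤ) ∣ u0 - 1 := by
    rw [hNZ, mul_comm (u0 - 1)] at h3
    exact Int.dvd_of_mul_dvd_mul_left (by exact_mod_cast hdpos.ne') h3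
  have h5 : (N : ℤ) ∣ u0 * (a + n * d) - a' := by
    rw [← ZMod.intCast_zmod_eq_zero_iff_dvd]
    push_cast
    rw [hu0, h1, sub_self]
  set e : ℤ := ((Nat.gcd d N1 : ℕ) : ℤ) with he
  have hed : e ∣ (d : ℤ) := Int.natCast_dvd_natCast.mpr (Nat.gcd_dvd_left _ _)
  have heN1 : e ∣ (N1 : ℤ) := Int.natCast_dvd_natCast.mpr (Nat.gcd_dvd_right _ _)
  have heN : e ∣ (N : ℤ) := by rw [hNZ]; exact Dvd.dvd.mul_right hed _
  have : a - a' = (u0 * (a + n * d) - a') - (u0 - 1) * a - u0 * n * d := by ring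
  rw [this]
  exact Int.dvd_sub (Int.dvd_sub (heN.trans h5) (Dvd.dvd.mul_right (heN1.trans h4) _))
    (Dvd.dvd.mul_left hed _)

omit [NeZero N] in
lemma cusp_exists_lift {d e : ℕ} (hd : 0 < d) (ā : (ZMod e)ˣ) :
    ∃ a : ℤ, IsCoprime a (d : ℤ) ∧ ((a : ℤ) : ZMod e) = ā := by
  obtain ⟨a0, ha0⟩ := ZMod.intCast_surjective (ā : ZMod e)
  have hcop : IsCoprime (e : ℤ) a0 := by
    rw [← ZMod.coe_int_isUnit_iff_isCoprime, ha0]
    exact ā.isUnit
  obtain ⟨t, ht⟩ := exists_isCoprime_add_mul a0 (d : ℤ) (e : ℤ) (by exact_mod_cast hd.ne')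
    (by
      intro p hp h1 _ h3
      exact (Nat.prime_iff_prime_int.mp hp).not_isUnit (hcop.isUnit_of_dvd' h3 h1))
  refine ⟨a0 + t * e, ht, ?_⟩
  push_cast
  rw [ZMod.natCast_self, mul_zero, add_zero, ha0]

/-- the index set for the cusps -/
abbrev CuspIdx (N : ℕ) : Type :=
  (d : {d : ℕ // d ∈ N.divisors}) × (ZMod (Nat.gcd d (N / d)))ˣ

lemma cusp_finite_units (n : ℕ) : Finite (ZMod n)ˣ := by
  cases n with
  | zero => exact inferInstanceAs (Finite ℤˣ)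
  | succ n => infer_instance

lemma cusp_card_units {n : ℕ} (hn : 0 < n) : Nat.card (ZMod n)ˣ = Nat.totient n := by
  haveI : NeZero n := ⟨hn.ne'⟩
  rw [Nat.card_eq_fintype_card, ZMod.card_units_eq_totient]

lemma card_cuspIdx : Nat.card (CuspIdx N) = cuspCount N := by
  haveI : ∀ d : {d : ℕ // d ∈ N.divisors}, Finite (ZMod (Nat.gcd d (N / d)))ˣ :=
    fun d => cusp_finite_units _
  rw [Nat.card_sigma, cuspCount, ← Finset.sum_coe_sort N.divisors]
  apply Finset.sum_congr rfl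
  intro d _
  apply cusp_card_units
  exact Nat.gcd_pos_of_pos_left _ (Nat.pos_of_mem_divisors d.2)

/-- the unimodular pair `(a, d)` attached to integers -/
def cuspPair {a : ℤ} {d : ℕ} (h : IsCoprime a (d : ℤ)) : Uni (ZMod N) :=
  ⟨((a : ZMod N), (d : ZMod N)), by
    have := h.map (Int.castRingHom (ZMod N))
    simpa using this⟩

/-- chosen integer representative -/
noncomputable def cuspLift (i : CuspIdx N) : ℤ :=
  (cusp_exists_lift (d := i.1) (Nat.pos_of_mem_divisors i.1.2) i.2).choose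

lemma cuspLift_coprime (i : CuspIdx N) : IsCoprime (cuspLift N i) ((i.1 : ℕ) : ℤ) :=
  (cusp_exists_lift (d := i.1) (Nat.pos_of_mem_divisors i.1.2) i.2).choose_spec.1

lemma cuspLift_cast (i : CuspIdx N) :
    ((cuspLift N i : ℤ) : ZMod (Nat.gcd i.1 (N / i.1))) = i.2 :=
  (cusp_exists_lift (d := i.1) (Nat.pos_of_mem_divisors i.1.2) i.2).choose_spec.2

/-- the orbit space -/
abbrev CuspOrb (N : ℕ) : Type :=
  MulAction.orbitRel.Quotient (Subgroup.zpowers ModularGroup.T) (Cos N)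

/-- the orbit of the class of a unimodular pair -/
noncomputable def cuspOrbOf (v : Uni (ZMod N)) : CuspOrb N :=
  Quotient.mk'' ((cosEquiv N).symm (P1.mk v))

lemma cuspOrbOf_surjective : Function.Surjective (cuspOrbOf N) := by
  intro x
  obtain ⟨y, rfl⟩ := Quotient.mk''_surjective x
  obtain ⟨v, hv⟩ := P1.mk_surjective (cosEquiv N y)
  refine ⟨v, ?_⟩
  rw [cuspOrbOf, hv, Equiv.symm_apply_apply]

lemma T_zpow_smul_fst (n : ℤ) (v : Uni (ZMod N)) :
    ((ModularGroup.T ^ n) • v).1.1 = v.1.1 + n * v.1.2 := by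
  rw [Uni.sl_smul_fst, ModularGroup.coe_T_zpow]
  simp

lemma T_zpow_smul_snd (n : ℤ) (v : Uni (ZMod N)) :
    ((ModularGroup.T ^ n) • v).1.2 = v.1.2 := by
  rw [Uni.sl_smul_snd, ModularGroup.coe_T_zpow]
  simp

lemma cuspOrbOf_eq_iff (v w : Uni (ZMod N)) :
    cuspOrbOf N v = cuspOrbOf N w ↔
      ∃ (u : (ZMod N)ˣ) (n : ℤ), (u : ZMod N) * (w.1.1 + n * w.1.2) = v.1.1 ∧
        (u : ZMod N) * w.1.2 = v.1.2 := by
  unfold cuspOrbOf
  rw [Quotient.eq'']
  have h0 : (MulAction.orbitRel (Subgroup.zpowers ModularGroup.T) (Cos N))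
      ((cosEquiv N).symm (P1.mk v)) ((cosEquiv N).symm (P1.mk w)) ↔
      ∃ g : Subgroup.zpowers ModularGroup.T,
        g • (cosEquiv N).symm (P1.mk w) = (cosEquiv N).symm (P1.mk v) :=
    MulAction.orbitRel_apply
  rw [h0]
  constructor
  · rintro ⟨⟨_, ⟨n, rfl⟩⟩, hg⟩
    have h1 := congrArg (cosEquiv N) hg
    rw [Equiv.apply_symm_apply] at h1
    have h2 : cosEquiv N ((ModularGroup.T ^ n) • (cosEquiv N).symm (P1.mk w)) = P1.mk v := h1
    rw [cosEquiv_smul, Equiv.apply_symm_apply, P1.smul_mk, eq_comm, P1.mk_eq_mk] at h2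
    obtain ⟨u, hu⟩ := h2
    refine ⟨u, n, ?_, ?_⟩
    · rw [← hu, Uni.units_smul_fst, T_zpow_smul_fst]
    · rw [← hu, Uni.units_smul_snd, T_zpow_smul_snd]
  · rintro ⟨u, n, h1, h2⟩
    refine ⟨⟨ModularGroup.T ^ n, ⟨n, rfl⟩⟩, ?_⟩
    apply (cosEquiv N).injective
    rw [Equiv.apply_symm_apply]
    have h3 : cosEquiv N ((ModularGroup.T ^ n) • (cosEquiv N).symm (P1.mk w)) = P1.mk v := by
      rw [cosEquiv_smul, Equiv.apply_symm_apply, P1.smul_mk, eq_comm, P1.mk_eq_mk]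
      refine ⟨u, ?_⟩
      ext
      · rw [Uni.units_smul_fst, T_zpow_smul_fst, h1]
      · rw [Uni.units_smul_snd, T_zpow_smul_snd, h2]
    exact h3

/-- the parametrisation of the orbits -/
noncomputable def cuspMap (i : CuspIdx N) : CuspOrb N :=
  cuspOrbOf N (cuspPair N (cuspLift_coprime N i))

lemma cuspMap_injective : Function.Injective (cuspMap N) := by
  rintro ⟨⟨d, hd⟩, a⟩ ⟨⟨d', hd'⟩, a'⟩ h
  unfold cuspMap at h
  rw [cuspOrbOf_eq_iff] at h
  obtain ⟨u, n, h1, h2⟩ := h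
  have key := cusp_eq_of_rel N (Nat.dvd_of_mem_divisors hd') (Nat.dvd_of_mem_divisors hd) u n h1 h2
  obtain ⟨hdd, hdvd⟩ := key
  have hdd' : d' = d := hdd
  subst hdd'
  congr 1
  ext
  rw [← cuspLift_cast N ⟨⟨d', hd⟩, a⟩, ← cuspLift_cast N ⟨⟨d', hd'⟩, a'⟩]
  exact ((ZMod.intCast_eq_intCast_iff_dvd_sub _ _ _).mpr hdvd)

lemma cuspMap_surjective : Function.Surjective (cuspMap N) := by
  intro x
  obtain ⟨v, rfl⟩ := cuspOrbOf_surjective N x
  obtain ⟨u, d, a, hd, hcop, h1, h2⟩ := cusp_normal_form N v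
  have hN : N ≠ 0 := NeZero.ne N
  have hdm : d ∈ N.divisors := Nat.mem_divisors.mpr ⟨hd, hN⟩
  have hae : IsUnit ((a : ℤ) : ZMod (Nat.gcd d (N / d))) := by
    rw [ZMod.coe_int_isUnit_iff_isCoprime]
    obtain ⟨m, hm⟩ : ((Nat.gcd d (N / d) : ℕ) : ℤ) ∣ (d : ℤ) :=
      Int.natCast_dvd_natCast.mpr (Nat.gcd_dvd_left _ _)
    obtain ⟨x, y, hxy⟩ := hcop
    exact ⟨y * m, x, by rw [← hxy, hm]; ring⟩
  obtain ⟨ā, hā⟩ := hae
  refine ⟨⟨⟨d, hdm⟩, ā⟩, ?_⟩
  unfold cuspMap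
  rw [cuspOrbOf_eq_iff]
  set i : CuspIdx N := ⟨⟨d, hdm⟩, ā⟩ with hi
  have hdvd : ((Nat.gcd d (N / d) : ℕ) : ℤ) ∣ a - cuspLift N i := by
    have h3 := cuspLift_cast N i
    have h4 : ((cuspLift N i : ℤ) : ZMod (Nat.gcd d (N / d))) = ((a : ℤ) : ZMod (Nat.gcd d (N / d))) := by
      rw [← hā]; exact h3
    exact (ZMod.intCast_eq_intCast_iff_dvd_sub _ _ _).mp h4
  obtain ⟨u', n, h5, h6⟩ := cusp_rel_of_dvd N hd hcop (cuspLift_coprime N i) hdvd
  -- `u' (a + n d) = lift`, `u' d = d`, and `(a, d) = u • v`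
  refine ⟨u' * u, n, ?_, ?_⟩
  · show ((u' * u : (ZMod N)ˣ) : ZMod N) * (v.1.1 + n * v.1.2) = ((cuspLift N i : ℤ) : ZMod N)
    rw [← h5, ← h1, ← h2, Uni.units_smul_fst, Uni.units_smul_snd, Units.val_mul]
    ring
  · show ((u' * u : (ZMod N)ˣ) : ZMod N) * v.1.2 = (d : ZMod N)
    rw [← h6, ← h2, Uni.units_smul_snd, Units.val_mul]
    ring

theorem card_orbits_T :
    Nat.card (MulAction.orbitRel.Quotient (Subgroup.zpowers ModularGroup.T) (Cos N)) =
      cuspCount N := by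
  rw [← card_cuspIdx N]
  exact (Nat.card_eq_of_bijective _ ⟨cuspMap_injective N, cuspMap_surjective N⟩).symm

end Fermat.Agent.X0
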