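import Fermat.Agent.X0.Ree
import Fermat.Prelude.Def_ModularCurve_GenusNumerics

/-!
# The genus formula is a natural number (conditional on the coset counts)
-/

set_option autoImplicit false

namespace Fermat.Agent.X0

open Matrix.SpecialLinearGroup CongruenceSubgroup ModularCurve
open scoped MatrixGroups

/-- the genus formula is a natural number, given the orbit counts on `SL(2,ℤ) ⧸ Γ₀(N)` -/
theorem genusNat_of_counts (N : ℕ) [Finite (SL(2, ℤ) ⧸ Gamma0 N)]
    (hcard : Nat.card (SL(2, ℤ) ⧸ Gamma0 N) = dedekindPsi N)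
    (hS : 2 * Nat.card (MulAction.orbitRel.Quotient (Subgroup.zpowers ModularGroup.S)
      (SL(2, ℤ) ⧸ Gamma0 N)) = dedekindPsi N + nuTwo N)
    (hU : 3 * Nat.card (MulAction.orbitRel.Quotient
      (Subgroup.zpowers (ModularGroup.S * ModularGroup.T)) (SL(2, ℤ) ⧸ Gamma0 N)) =
        dedekindPsi N + 2 * nuThree N)
    (hT : Nat.card (MulAction.orbitRel.Quotient (Subgroup.zpowers ModularGroup.T)
      (SL(2, ℤ) ⧸ Gamma0 N)) = cuspCount N) :
    ∃ g : ℕ, (g : ℚ) = genusFormula N ∧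
      Nat.card (SL(2, ℤ) ⧸ Gamma0 N) + 2 =
        Nat.card (MulAction.orbitRel.Quotient (Subgroup.zpowers ModularGroup.S)
          (SL(2, ℤ) ⧸ Gamma0 N)) +
        Nat.card (MulAction.orbitRel.Quotient (Subgroup.zpowers ModularGroup.T)
          (SL(2, ℤ) ⧸ Gamma0 N)) +
        Nat.card (MulAction.orbitRel.Quotient
          (Subgroup.zpowers (ModularGroup.S * ModularGroup.T)) (SL(2, ℤ) ⧸ Gamma0 N)) + 2 * g := by
  obtain ⟨g, hg0⟩ := ree_action (X := SL(2, ℤ) ⧸ Gamma0 N) ModularGroup.S ModularGroup.T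
    SpecialLinearGroup.SL2Z_generators
  have hg : Nat.card (SL(2, ℤ) ⧸ Gamma0 N) + 2 =
        Nat.card (MulAction.orbitRel.Quotient (Subgroup.zpowers ModularGroup.S)
          (SL(2, ℤ) ⧸ Gamma0 N)) +
        Nat.card (MulAction.orbitRel.Quotient (Subgroup.zpowers ModularGroup.T)
          (SL(2, ℤ) ⧸ Gamma0 N)) +
        Nat.card (MulAction.orbitRel.Quotient
          (Subgroup.zpowers (ModularGroup.S * ModularGroup.T)) (SL(2, ℤ) ⧸ Gamma0 N)) + 2 * g :=
    hg0
  refine ⟨g, ?_, hg⟩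
  rw [hcard, hT] at hg
  have hS' : (2 : ℚ) * (Nat.card (MulAction.orbitRel.Quotient (Subgroup.zpowers ModularGroup.S)
      (SL(2, ℤ) ⧸ Gamma0 N)) : ℚ) = dedekindPsi N + nuTwo N := by exact_mod_cast hS
  have hU' : (3 : ℚ) * (Nat.card (MulAction.orbitRel.Quotient
      (Subgroup.zpowers (ModularGroup.S * ModularGroup.T)) (SL(2, ℤ) ⧸ Gamma0 N)) : ℚ) =
        dedekindPsi N + 2 * nuThree N := by exact_mod_cast hU
  have hg' : (dedekindPsi N : ℚ) + 2 =
      (Nat.card (MulAction.orbitRel.Quotient (Subgroup.zpowers ModularGroup.S)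
        (SL(2, ℤ) ⧸ Gamma0 N)) : ℚ) + cuspCount N +
      (Nat.card (MulAction.orbitRel.Quotient
        (Subgroup.zpowers (ModularGroup.S * ModularGroup.T)) (SL(2, ℤ) ⧸ Gamma0 N)) : ℚ) +
        2 * g := by exact_mod_cast hg
  unfold genusFormula
  linarith

end Fermat.Agent.X0
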