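import Fermat.Agent.X0.P1

/-!
# The cardinality of `ℙ¹(ℤ/N)` is the Dedekind `ψ` function
-/

set_option autoImplicit false

namespace Fermat.Agent.X0

open ModularCurve

section psi

/-- indicator of squarefree numbers -/
def sqfInd : ArithmeticFunction ℕ :=
  ⟨fun n => if Squarefree n then 1 else 0, by simp⟩

lemma sqfInd_apply (n : ℕ) [Decidable (Squarefree n)] :
    sqfInd n = if Squarefree n then 1 else 0 := by
  by_cases h : Squarefree n <;> simp [sqfInd, h]

lemma sqfInd_isMultiplicative : sqfInd.IsMultiplicative := by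
  classical
  refine ⟨by simp [sqfInd_apply], ?_⟩
  intro m n hmn
  simp only [sqfInd_apply, Nat.squarefree_mul hmn]
  by_cases h1 : Squarefree m <;> by_cases h2 : Squarefree n <;> simp [h1, h2]

lemma dedekindPsi_eq (N : ℕ) : dedekindPsi N = (sqfInd * ArithmeticFunction.id) N := by
  classical
  rw [ArithmeticFunction.mul_apply,
    Nat.sum_divisorsAntidiagonal (fun a b => sqfInd a * ArithmeticFunction.id b), dedekindPsi,
    Finset.sum_filter]
  refine Finset.sum_congr rfl fun d _ => ?_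
  rw [sqfInd_apply]
  by_cases h : Squarefree d <;> simp [h]

lemma dedekindPsi_mul {m n : ℕ} (h : m.Coprime n) :
    dedekindPsi (m * n) = dedekindPsi m * dedekindPsi n := by
  simp only [dedekindPsi_eq]
  exact (sqfInd_isMultiplicative.mul ArithmeticFunction.isMultiplicative_id).map_mul_of_coprime h

lemma dedekindPsi_prime_pow {p : ℕ} (hp : p.Prime) (k : ℕ) :
    dedekindPsi (p ^ (k + 1)) = p ^ (k + 1) + p ^ k := by
  classical
  rw [dedekindPsi, Finset.sum_filter, Nat.sum_divisors_prime_pow hp, Finset.sum_range_succ',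
    Finset.sum_range_succ']
  have h0 : ∀ i ∈ Finset.range k,
      (if Squarefree (p ^ (i + 1 + 1)) then p ^ (k + 1) / p ^ (i + 1 + 1) else 0) = 0 := by
    intro i _
    rw [if_neg]
    rw [Nat.squarefree_pow_iff hp.ne_one (by omega)]
    omega
  rw [Finset.sum_eq_zero h0]
  have h1 : Squarefree (p ^ (0 + 1)) := by simpa using hp.squarefree
  rw [if_pos h1, if_pos (by simp)]
  have h2 : p ^ (k + 1) / p ^ (0 + 1) = p ^ k := by
    rw [zero_add, pow_one, pow_succ, Nat.mul_div_cancel _ hp.pos]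
  rw [h2]
  simp [add_comm]

end psi

section uni

variable {R S : Type} [CommRing R] [CommRing S]

/-- transport of unimodular pairs along a ring isomorphism -/
def Uni.congr (e : R ≃+* S) : Uni R ≃ Uni S where
  toFun v := ⟨(e v.1.1, e v.1.2), IsCoprime.map v.2 e.toRingHom⟩
  invFun v := ⟨(e.symm v.1.1, e.symm v.1.2), IsCoprime.map v.2 e.symm.toRingHom⟩
  left_inv _ := Uni.ext (e.symm_apply_apply _) (e.symm_apply_apply _)
  right_inv _ := Uni.ext (e.apply_symm_apply _) (e.apply_symm_apply _)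

/-- unimodular pairs over a product ring -/
def Uni.prodEquiv : Uni (R × S) ≃ Uni R × Uni S where
  toFun v := (⟨(v.1.1.1, v.1.2.1), v.2.map (RingHom.fst R S)⟩,
    ⟨(v.1.1.2, v.1.2.2), v.2.map (RingHom.snd R S)⟩)
  invFun v := ⟨((v.1.1.1, v.2.1.1), (v.1.1.2, v.2.1.2)), by
    obtain ⟨a, b, hab⟩ := v.1.2
    obtain ⟨c, d, hcd⟩ := v.2.2
    exact ⟨(a, c), (b, d), Prod.ext hab hcd⟩⟩
  left_inv v := rfl
  right_inv v := rfl

lemma Uni.stabilizer_eq_bot (v : Uni R) : MulAction.stabilizer Rˣ v = ⊥ := by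
  rw [eq_bot_iff]
  intro u hu
  rw [MulAction.mem_stabilizer_iff] at hu
  have h1 : (u : R) * v.1.1 = v.1.1 := congrArg (fun w : Uni R => w.1.1) hu
  have h2 : (u : R) * v.1.2 = v.1.2 := congrArg (fun w : Uni R => w.1.2) hu
  obtain ⟨a, b, hab⟩ := v.2
  rw [Subgroup.mem_bot]
  ext
  rw [Units.val_one]
  linear_combination (1 - (u : R)) * hab + a * h1 + b * h2

lemma Uni.card_eq : Nat.card (Uni R) = Nat.card (P1 R) * Nat.card Rˣ := by
  rw [Nat.card_congr (MulAction.selfEquivOrbitsQuotientProd Uni.stabilizer_eq_bot), Nat.card_prod]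
  rfl

end uni

section count

lemma uni_card_mul {m n : ℕ} (h : m.Coprime n) :
    Nat.card (Uni (ZMod (m * n))) = Nat.card (Uni (ZMod m)) * Nat.card (Uni (ZMod n)) := by
  rw [Nat.card_congr ((Uni.congr (ZMod.chineseRemainder h)).trans Uni.prodEquiv), Nat.card_prod]

lemma isNilpotent_of_not_isUnit {p : ℕ} (hp : p.Prime) (k : ℕ) (a : ZMod (p ^ (k + 1)))
    (ha : ¬ IsUnit a) : IsNilpotent a := by
  have : NeZero (p ^ (k + 1)) := ⟨pow_ne_zero _ hp.ne_zero⟩
  have h1 : ((a.val : ℕ) : ZMod (p ^ (k + 1))) = a := ZMod.natCast_zmod_val a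
  rw [← h1, ZMod.isUnit_iff_coprime] at ha
  have h2 : p ∣ a.val := by
    by_contra hnd
    exact ha (Nat.Coprime.pow_right _ ((Nat.Prime.coprime_iff_not_dvd hp).mpr hnd).symm)
  obtain ⟨b, hb⟩ := h2
  refine ⟨k + 1, ?_⟩
  rw [← h1, hb, Nat.cast_mul, mul_pow, ← Nat.cast_pow, ZMod.natCast_self, zero_mul]

lemma isCoprime_iff_of_prime_pow {p : ℕ} (hp : p.Prime) (k : ℕ) (a c : ZMod (p ^ (k + 1))) :
    IsCoprime a c ↔ ¬ (¬ IsUnit a ∧ ¬ IsUnit c) := by
  have : Fact (1 < p ^ (k + 1)) := ⟨Nat.one_lt_pow (by omega) hp.one_lt⟩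
  constructor
  · rintro ⟨x, y, hxy⟩ ⟨ha, hc⟩
    have h1 : IsNilpotent (x * a) := (Commute.all _ _).isNilpotent_mul_left (isNilpotent_of_not_isUnit hp k a ha)
    have h2 : IsNilpotent (y * c) := (Commute.all _ _).isNilpotent_mul_left (isNilpotent_of_not_isUnit hp k c hc)
    have h3 : IsNilpotent (x * a + y * c) := (Commute.all _ _).isNilpotent_add h1 h2
    rw [hxy] at h3
    exact not_isNilpotent_one h3
  · intro h
    by_cases ha : IsUnit a
    · obtain ⟨a', ha'⟩ := ha.exists_left_inv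
      exact ⟨a', 0, by rw [ha', zero_mul, add_zero]⟩
    · have hc : IsUnit c := by
        by_contra hc
        exact h ⟨ha, hc⟩
      obtain ⟨c', hc'⟩ := hc.exists_left_inv
      exact ⟨0, c', by rw [hc', zero_mul, zero_add]⟩

lemma uni_card_prime_pow {p : ℕ} (hp : p.Prime) (k : ℕ) :
    Nat.card (Uni (ZMod (p ^ (k + 1)))) =
      (p ^ (k + 1) + p ^ k) * (p ^ (k + 1)).totient := by
  classical
  have : NeZero (p ^ (k + 1)) := ⟨pow_ne_zero _ hp.ne_zero⟩
  set R := ZMod (p ^ (k + 1)) with hR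
  set u := Nat.card {a : R // IsUnit a} with hu
  set z := Nat.card {a : R // ¬ IsUnit a} with hz
  have hn : Nat.card R = p ^ (k + 1) := Nat.card_zmod _
  have h1 : u + z = p ^ (k + 1) := by
    rw [← hn, ← Nat.card_congr (Equiv.sumCompl (fun a : R => IsUnit a)), Nat.card_sum]
  have hu' : u = (p ^ (k + 1)).totient := by
    rw [← ZMod.card_units_eq_totient, ← Nat.card_eq_fintype_card]
    refine Nat.card_congr (Equiv.ofBijective (fun a => a.2.unit) ⟨?_, ?_⟩)
    · intro a b hab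
      apply Subtype.ext
      have := congrArg Units.val hab
      simpa using this
    · intro v
      exact ⟨⟨v, v.isUnit⟩, Units.ext rfl⟩
  have h2 : Nat.card (Uni R) + z * z = p ^ (k + 1) * p ^ (k + 1) := by
    have e1 : Uni R ≃ {v : R × R // ¬ (¬ IsUnit v.1 ∧ ¬ IsUnit v.2)} :=
      Equiv.subtypeEquivRight fun v => isCoprime_iff_of_prime_pow hp k v.1 v.2
    have e2 : {v : R × R // (¬ IsUnit v.1 ∧ ¬ IsUnit v.2)} ≃
        {a : R // ¬ IsUnit a} × {a : R // ¬ IsUnit a} :=
      { toFun := fun v => (⟨v.1.1, v.2.1⟩, ⟨v.1.2, v.2.2⟩)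
        invFun := fun v => ⟨(v.1.1, v.2.1), v.1.2, v.2.2⟩
        left_inv := fun v => rfl
        right_inv := fun v => rfl }
    have h3 := Nat.card_congr (Equiv.sumCompl (fun v : R × R => ¬ IsUnit v.1 ∧ ¬ IsUnit v.2))
    rw [Nat.card_sum, Nat.card_prod, hn, Nat.card_congr e2, Nat.card_prod, ← Nat.card_congr e1]
      at h3
    rw [← h3, add_comm]
  have hz' : z = p ^ k := by
    have h4 := Nat.totient_prime_pow_succ hp k
    rw [← hu'] at h4
    obtain ⟨q, rfl⟩ : ∃ q, p = q + 1 := ⟨p - 1, by have := hp.pos; omega⟩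
    rw [h4, pow_succ (q + 1) k, Nat.add_sub_cancel] at h1
    nlinarith [h1]
  rw [← hu']
  have h5 : p ^ (k + 1) = u + p ^ k := by rw [← h1, hz']
  rw [hz'] at h2
  generalize Nat.card (Uni R) = J at h2 ⊢
  generalize p ^ (k + 1) = n at h2 h5 ⊢
  subst h5
  nlinarith [h2]

theorem uni_card (N : ℕ) (hN : N ≠ 0) :
    Nat.card (Uni (ZMod N)) = dedekindPsi N * N.totient := by
  induction N using Nat.recOnPosPrimePosCoprime with
  | zero => exact absurd rfl hN
  | one =>
    rw [dedekindPsi_one, Nat.totient_one, mul_one]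
    have : Subsingleton (ZMod 1) := by infer_instance
    have : Subsingleton (Uni (ZMod 1)) := ⟨fun a b => Uni.ext (Subsingleton.elim _ _)
      (Subsingleton.elim _ _)⟩
    have : Nonempty (Uni (ZMod 1)) := ⟨⟨(1, 1), isCoprime_one_left⟩⟩
    exact Nat.card_eq_one_iff_unique.mpr ⟨inferInstance, inferInstance⟩
  | prime_pow p n hp hn =>
    obtain ⟨k, rfl⟩ : ∃ k, n = k + 1 := ⟨n - 1, by omega⟩
    rw [uni_card_prime_pow hp, dedekindPsi_prime_pow hp]
  | coprime a b ha hb hab iha ihb =>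
    rw [uni_card_mul hab, iha (by omega), ihb (by omega), dedekindPsi_mul hab,
      Nat.totient_mul hab]
    ring

theorem card_P1 (N : ℕ) [NeZero N] : Nat.card (P1 (ZMod N)) = dedekindPsi N := by
  have h1 := uni_card N (NeZero.ne N)
  rw [Uni.card_eq, Nat.card_eq_fintype_card (α := (ZMod N)ˣ), ZMod.card_units_eq_totient] at h1
  exact Nat.eq_of_mul_eq_mul_right (Nat.totient_pos.mpr (NeZero.pos N)) h1

end count

end Fermat.Agent.X0
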