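import Mathlib

/-!
# Ree / Scott: the "genus" of a transitive pair of permutations is a natural number
-/

set_option autoImplicit false
set_option linter.unusedSectionVars false

namespace Fermat.Agent.X0

open Equiv Equiv.Perm

section Orbits

variable {X : Type*}

/-- number of orbits of the cyclic group generated by a permutation -/
noncomputable def reeOrb (s : Perm X) : ℕ :=
  Nat.card (MulAction.orbitRel.Quotient (Subgroup.zpowers s) X)

lemma ree_orbitRel_iff (s : Perm X) (x y : X) :
    MulAction.orbitRel (Subgroup.zpowers s) X x y ↔ SameCycle s y x := by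
  rw [MulAction.orbitRel_apply, MulAction.mem_orbit_iff]
  constructor
  · rintro ⟨⟨g, n, rfl⟩, hg⟩
    exact ⟨n, hg⟩
  · rintro ⟨n, hn⟩
    exact ⟨⟨s ^ n, n, rfl⟩, hn⟩

variable [Fintype X] [DecidableEq X]

/-- classifying map for the orbits of `s` -/
def reeClass (s : Perm X) (x : X) : X ⊕ Perm X :=
  if s x = x then Sum.inl x else Sum.inr (s.cycleOf x)

lemma reeClass_eq_iff (s : Perm X) (x y : X) :
    reeClass s x = reeClass s y ↔ SameCycle s x y := by
  unfold reeClass
  constructor
  · intro h
    by_cases hx : s x = x <;> by_cases hy : s y = y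
    · simp only [hx, hy, if_true, Sum.inl.injEq] at h
      rw [h]
    · simp [hx, hy] at h
    · simp [hx, hy] at h
    · simp only [hx, hy, if_false, Sum.inr.injEq] at h
      by_contra hc
      have h1 : s.cycleOf x y = s.cycleOf y y := by rw [h]
      rw [cycleOf_apply_self, cycleOf_apply, if_neg hc] at h1
      exact hy h1.symm
  · intro h
    by_cases hx : s x = x
    · have hxy : x = y := (h.eq_of_left hx)
      rw [hxy]
    · have hy : s y ≠ y := fun hy => hx (by
        have := h.symm.eq_of_left hy
        rw [← this]; exact hy)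
      simp only [hx, hy, if_false, h.cycleOf_eq]

lemma ree_range_class (s : Perm X) :
    Finset.univ.image (reeClass s) =
      (Finset.univ.filter fun x => s x = x).disjSum s.cycleFactorsFinset := by
  ext z
  simp only [Finset.mem_image, Finset.mem_univ, true_and, Finset.mem_disjSum, Finset.mem_filter]
  constructor
  · rintro ⟨x, rfl⟩
    by_cases hx : s x = x
    · left; exact ⟨x, hx, by simp [reeClass, hx]⟩
    · right
      exact ⟨s.cycleOf x, cycleOf_mem_cycleFactorsFinset_iff.mpr (mem_support.mpr hx),
        by simp [reeClass, hx]⟩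
  · rintro (⟨x, hx, rfl⟩ | ⟨c, hc, rfl⟩)
    · exact ⟨x, by simp [reeClass, hx]⟩
    · obtain ⟨x, hx⟩ := IsCycle.nonempty_support (mem_cycleFactorsFinset_iff.mp hc).1
      have hxs : s x ≠ x := mem_support.mp (mem_cycleFactorsFinset_support_le hc hx)
      exact ⟨x, by simp [reeClass, hxs, cycle_is_cycleOf hx hc]⟩

lemma reeOrb_eq (s : Perm X) :
    reeOrb s + s.cycleType.sum = Fintype.card X + Multiset.card s.cycleType := by
  have h1 : reeOrb s = (Finset.univ.image (reeClass s)).card := by
    unfold reeOrb
    have hker : MulAction.orbitRel (Subgroup.zpowers s) X = Setoid.ker (reeClass s) := by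
      ext x y
      rw [ree_orbitRel_iff, Setoid.ker_def, reeClass_eq_iff]
      exact ⟨SameCycle.symm, SameCycle.symm⟩
    have e : MulAction.orbitRel.Quotient (Subgroup.zpowers s) X ≃ Set.range (reeClass s) :=
      (Quotient.congrRight (fun x y => by rw [hker])).trans
        (Setoid.quotientKerEquivRange (reeClass s))
    rw [Nat.card_congr e, Nat.card_eq_fintype_card, ← Set.toFinset_card, Set.toFinset_range]
  have h2 : (Finset.univ.filter fun x => s x = x).card + s.support.card = Fintype.card X := by
    have : (Finset.univ.filter fun x => s x = x) = s.supportᶜ := by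
      ext x; simp
    rw [this, Finset.card_compl, Nat.sub_add_cancel (Finset.card_le_univ _)]
  have h3 : Multiset.card s.cycleType = s.cycleFactorsFinset.card := by
    rw [cycleType_def, Multiset.card_map]; rfl
  rw [h1, ree_range_class, Finset.card_disjSum, sum_cycleType, h3]
  omega

lemma ree_sign (s : Perm X) : sign s = (-1 : ℤˣ) ^ (Fintype.card X + reeOrb s) := by
  rw [sign_of_cycleType]
  have h := reeOrb_eq s
  have h2 : Fintype.card X + reeOrb s + 2 * s.cycleType.sum
      = 2 * Fintype.card X + (s.cycleType.sum + Multiset.card s.cycleType) := by omega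
  have h3 : ((-1 : ℤˣ) ^ (Fintype.card X + reeOrb s)) * ((-1 : ℤˣ) ^ (2 * s.cycleType.sum)) =
      ((-1 : ℤˣ) ^ (2 * Fintype.card X)) *
        (-1 : ℤˣ) ^ (s.cycleType.sum + Multiset.card s.cycleType) := by
    rw [← pow_add, ← pow_add, h2]
  simpa [pow_mul] using h3.symm

/-- parity -/
lemma ree_even (a b : Perm X) :
    Even (Fintype.card X + reeOrb a + reeOrb b + reeOrb (a * b)) := by
  have h := sign_mul a b
  rw [ree_sign a, ree_sign b, ree_sign (a * b), ← pow_add] at h
  have h2 : (-1 : ℤˣ) ^ ((Fintype.card X + reeOrb (a * b)) +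
      (Fintype.card X + reeOrb a + (Fintype.card X + reeOrb b))) = 1 := by
    rw [pow_add, h, ← pow_add, ← two_mul, pow_mul]; simp
  have h3 : Even ((Fintype.card X + reeOrb (a * b)) +
      (Fintype.card X + reeOrb a + (Fintype.card X + reeOrb b))) := by
    by_contra hodd
    rw [Nat.not_even_iff_odd] at hodd
    rw [hodd.neg_one_pow] at h2
    exact absurd h2 (by decide)
  obtain ⟨r, hr⟩ := h3
  exact ⟨r - Fintype.card X, by omega⟩

end Orbits

section Scott

open Module

variable {K V : Type*} [Field K] [AddCommGroup V] [Module K V] [FiniteDimensional K V]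

/-- Scott's lemma (abstract linear algebra form). -/
lemma ree_scott (A B : V →ₗ[K] V) :
    finrank K V + finrank K (LinearMap.range (1 - A) ⊔ LinearMap.range (1 - B) : Submodule K V) ≤
      finrank K (LinearMap.range (1 - A)) + finrank K (LinearMap.range (1 - B)) +
        finrank K (LinearMap.range (1 - A * B)) +
        finrank K (LinearMap.ker (1 - A) ⊓ LinearMap.ker (1 - B) : Submodule K V) := by
  let RA := LinearMap.range (1 - A)
  let RB := LinearMap.range (1 - B)
  let RC := LinearMap.range (1 - A * B)
  let β : V →ₗ[K] (RA × RB × RC) :=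
    LinearMap.prod (1 - A).rangeRestrict (LinearMap.prod (1 - B).rangeRestrict
      (1 - A * B).rangeRestrict)
  let δ : (RA × RB × RC) →ₗ[K] V :=
    LinearMap.coprod RA.subtype (LinearMap.coprod (A ∘ₗ RB.subtype) (-RC.subtype))
  have hβ1 : ∀ v, ((β v).1 : V) = v - A v := fun v => rfl
  have hβ2 : ∀ v, ((β v).2.1 : V) = v - B v := fun v => rfl
  have hβ3 : ∀ v, ((β v).2.2 : V) = v - A (B v) := fun v => rfl
  have hδ : ∀ x : RA × RB × RC, δ x = (x.1 : V) + (A (x.2.1 : V) + -(x.2.2 : V)) := fun x => rfl
  have hδβ : LinearMap.range β ≤ LinearMap.ker δ := by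
    rintro _ ⟨v, rfl⟩
    rw [LinearMap.mem_ker, hδ, hβ1, hβ2, hβ3, map_sub]
    abel
  have hkerβ : LinearMap.ker β = LinearMap.ker (1 - A) ⊓ LinearMap.ker (1 - B) := by
    ext v
    rw [LinearMap.mem_ker, Submodule.mem_inf, LinearMap.mem_ker, LinearMap.mem_ker]
    constructor
    · intro h
      constructor
      · have := hβ1 v
        rw [h] at this
        exact this.symm
      · have := hβ2 v
        rw [h] at this
        exact this.symm
    · rintro ⟨h1, h2⟩
      have h1' : v - A v = 0 := h1
      have h2' : v - B v = 0 := h2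
      refine Prod.ext (Subtype.ext ?_) (Prod.ext (Subtype.ext ?_) (Subtype.ext ?_))
      · rw [hβ1, h1']; rfl
      · rw [hβ2, h2']; rfl
      · rw [hβ3]
        rw [sub_eq_zero] at h1' h2'
        rw [← h2', ← h1', sub_self]; rfl
  have hranδ : RA ⊔ RB ≤ LinearMap.range δ := by
    apply sup_le
    · rintro _ ⟨v, rfl⟩
      refine ⟨(⟨(1 - A) v, v, rfl⟩, 0, 0), ?_⟩
      rw [hδ]; simp
    · rintro _ ⟨v, rfl⟩
      refine ⟨(⟨(1 - A) ((1 - B) v), _, rfl⟩, ⟨(1 - B) v, v, rfl⟩, 0), ?_⟩
      rw [hδ]; simp
  have e1 := LinearMap.finrank_range_add_finrank_ker β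
  have e2 := LinearMap.finrank_range_add_finrank_ker δ
  have e3 := Submodule.finrank_mono hδβ
  have e4 := Submodule.finrank_mono hranδ
  have e5 : finrank K (RA × RB × RC) = finrank K RA + (finrank K RB + finrank K RC) := by
    rw [Module.finrank_prod, Module.finrank_prod]
  rw [hkerβ] at e1
  show finrank K V + finrank K (RA ⊔ RB : Submodule K V) ≤ finrank K RA + finrank K RB +
    finrank K RC + _
  omega

/-- the space of "parabolic cocycles" of the Scott complex -/
def reeZ (A B : V →ₗ[K] V) : Submodule K (V × V × V) where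
  carrier := {p | p.1 ∈ LinearMap.range (1 - A) ∧ p.2.1 ∈ LinearMap.range (1 - B) ∧
    p.2.2 ∈ LinearMap.range (1 - A * B) ∧ p.1 + A p.2.1 = p.2.2}
  add_mem' := by
    rintro p q ⟨h1, h2, h3, h4⟩ ⟨k1, k2, k3, k4⟩
    refine ⟨Submodule.add_mem _ h1 k1, Submodule.add_mem _ h2 k2, Submodule.add_mem _ h3 k3, ?_⟩
    simp only [Prod.fst_add, Prod.snd_add, map_add, ← h4, ← k4]
    abel
  zero_mem' := ⟨Submodule.zero_mem _, Submodule.zero_mem _, Submodule.zero_mem _, by simp⟩
  smul_mem' := by
    rintro c p ⟨h1, h2, h3, h4⟩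
    refine ⟨Submodule.smul_mem _ c h1, Submodule.smul_mem _ c h2, Submodule.smul_mem _ c h3, ?_⟩
    simp only [Prod.smul_fst, Prod.smul_snd, map_smul, ← h4, smul_add]

lemma ree_finrank_Z_le (A B : V →ₗ[K] V) :
    finrank K (reeZ A B) +
      finrank K (LinearMap.range (1 - A) ⊔ LinearMap.range (1 - B) : Submodule K V) ≤
      finrank K (LinearMap.range (1 - A)) + finrank K (LinearMap.range (1 - B)) +
        finrank K (LinearMap.range (1 - A * B)) := by
  let RA := LinearMap.range (1 - A)
  let RB := LinearMap.range (1 - B)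
  let RC := LinearMap.range (1 - A * B)
  let δ : (RA × RB × RC) →ₗ[K] V :=
    LinearMap.coprod RA.subtype (LinearMap.coprod (A ∘ₗ RB.subtype) (-RC.subtype))
  have hδ : ∀ x : RA × RB × RC, δ x = (x.1 : V) + (A (x.2.1 : V) + -(x.2.2 : V)) := fun x => rfl
  have hranδ : RA ⊔ RB ≤ LinearMap.range δ := by
    apply sup_le
    · rintro _ ⟨v, rfl⟩
      refine ⟨(⟨(1 - A) v, v, rfl⟩, 0, 0), ?_⟩
      rw [hδ]; simp
    · rintro _ ⟨v, rfl⟩
      refine ⟨(⟨(1 - A) ((1 - B) v), _, rfl⟩, ⟨(1 - B) v, v, rfl⟩, 0), ?_⟩
      rw [hδ]; simp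
  let J : (RA × RB × RC) →ₗ[K] (V × V × V) :=
    LinearMap.prodMap RA.subtype (LinearMap.prodMap RB.subtype RC.subtype)
  have hZ : reeZ A B ≤ (LinearMap.ker δ).map J := by
    rintro p ⟨h1, h2, h3, h4⟩
    refine ⟨(⟨p.1, h1⟩, ⟨p.2.1, h2⟩, ⟨p.2.2, h3⟩), ?_, rfl⟩
    show δ _ = 0
    rw [hδ]
    show p.1 + (A p.2.1 + -p.2.2) = 0
    rw [← h4]; abel
  have e1 := Submodule.finrank_mono hZ
  have e2 := Submodule.finrank_map_le J (LinearMap.ker δ)
  have e3 := LinearMap.finrank_range_add_finrank_ker δ
  have e4 := Submodule.finrank_mono hranδ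
  have e5 : finrank K (RA × RB × RC) = finrank K RA + (finrank K RB + finrank K RC) := by
    rw [Module.finrank_prod, Module.finrank_prod]
  show finrank K (reeZ A B) + finrank K (RA ⊔ RB : Submodule K V) ≤ finrank K RA + finrank K RB +
    finrank K RC
  omega

end Scott

section PermModule

open Module

variable {X : Type*} (K : Type*) [Field K]

/-- the permutation representation on `X → K` -/
noncomputable def reeP (s : Perm X) : (X → K) →ₗ[K] (X → K) := LinearMap.funLeft K K (s.symm : X → X)

lemma reeP_apply (s : Perm X) (v : X → K) (x : X) : reeP K s v x = v (s.symm x) := rfl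

lemma reeP_mul (a b : Perm X) : reeP K (a * b) = reeP K a * reeP K b := by
  ext v x
  rfl

lemma ree_mem_ker_iff (s : Perm X) (v : X → K) :
    v ∈ LinearMap.ker (1 - reeP K s) ↔ ∀ x, v (s x) = v x := by
  rw [LinearMap.mem_ker]
  constructor
  · intro h x
    have := congrFun h (s x)
    simp only [LinearMap.sub_apply, Module.End.one_apply, Pi.sub_apply, reeP_apply,
      symm_apply_apply, Pi.zero_apply] at this
    exact sub_eq_zero.mp this
  · intro h
    ext x
    have := h (s.symm x)
    simp only [apply_symm_apply] at this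
    simp only [LinearMap.sub_apply, Module.End.one_apply, Pi.sub_apply, reeP_apply, Pi.zero_apply]
    exact sub_eq_zero.mpr this

lemma ree_finrank_span_singleton_le (v : X → K) :
    finrank K (Submodule.span K {v}) ≤ 1 := by
  have := finrank_span_le_card (R := K) ({v} : Set (X → K))
  simpa using this

lemma ree_invariant_closure (S : Set (Perm X)) (v : X → K) (h : ∀ g ∈ S, ∀ x, v (g x) = v x) :
    ∀ g ∈ Subgroup.closure S, ∀ x, v (g x) = v x := by
  intro g hg
  induction hg using Subgroup.closure_induction with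
  | mem g hg => exact h g hg
  | one => intro x; rfl
  | mul g g' _ _ h1 h2 => intro x; rw [Perm.mul_apply, h1, h2]
  | inv g _ h1 =>
    intro x
    have := h1 (g⁻¹ x)
    rw [show g (g⁻¹ x) = x from g.apply_symm_apply x] at this
    exact this.symm

variable [Fintype X]

lemma ree_finrank_ker (s : Perm X) : finrank K (LinearMap.ker (1 - reeP K s)) = reeOrb s := by
  classical
  let Ω := MulAction.orbitRel.Quotient (Subgroup.zpowers s) X
  let q : X → Ω := Quotient.mk _
  have hq : Function.Surjective q := Quotient.mk_surjective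
  let L : (Ω → K) →ₗ[K] (X → K) := LinearMap.funLeft K K q
  have hL : Function.Injective L := LinearMap.funLeft_injective_of_surjective K K q hq
  have hran : LinearMap.range L = LinearMap.ker (1 - reeP K s) := by
    ext v
    rw [ree_mem_ker_iff]
    constructor
    · rintro ⟨w, rfl⟩ x
      show w (q (s x)) = w (q x)
      congr 1
      apply Quotient.sound
      show MulAction.orbitRel (Subgroup.zpowers s) X (s x) x
      rw [ree_orbitRel_iff]
      exact ⟨1, by simp⟩
    · intro h
      have h' : ∀ g ∈ Subgroup.closure ({s} : Set (Perm X)), ∀ x, v (g x) = v x :=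
        ree_invariant_closure K {s} v (by rintro g rfl; exact h)
      refine ⟨Quotient.lift v ?_, ?_⟩
      · intro x y hxy
        have hxy' : MulAction.orbitRel (Subgroup.zpowers s) X x y := hxy
        rw [ree_orbitRel_iff] at hxy'
        obtain ⟨n, hn⟩ := hxy'
        rw [← hn]
        apply h'
        rw [← Subgroup.zpowers_eq_closure]
        exact ⟨n, rfl⟩
      · ext x
        rfl
  have : Fintype Ω := Fintype.ofFinite Ω
  rw [← hran, LinearMap.finrank_range_of_inj hL, Module.finrank_fintype_fun_eq_card, reeOrb,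
    Nat.card_eq_fintype_card]

lemma ree_finrank_range (s : Perm X) :
    finrank K (LinearMap.range (1 - reeP K s)) + reeOrb s = Fintype.card X := by
  rw [← ree_finrank_ker K, LinearMap.finrank_range_add_finrank_ker,
    Module.finrank_fintype_fun_eq_card]

variable [DecidableEq X] (a b : Perm X)
  (htrans : ∀ x y : X, ∃ g ∈ Subgroup.closure ({a, b} : Set (Perm X)), g x = y)

include htrans

lemma ree_finrank_inv_le :
    finrank K (LinearMap.ker (1 - reeP K a) ⊓ LinearMap.ker (1 - reeP K b) :
      Submodule K (X → K)) ≤ 1 := by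
  have hle : (LinearMap.ker (1 - reeP K a) ⊓ LinearMap.ker (1 - reeP K b) : Submodule K (X → K)) ≤
      Submodule.span K {(fun _ => 1 : X → K)} := by
    intro v hv
    rw [Submodule.mem_inf, ree_mem_ker_iff, ree_mem_ker_iff] at hv
    have h' := ree_invariant_closure K {a, b} v (by
      rintro g (rfl | rfl)
      · exact hv.1
      · exact hv.2)
    rcases isEmpty_or_nonempty X with hX | ⟨⟨x₀⟩⟩
    · have : v = 0 := Subsingleton.elim _ _
      rw [this]; exact Submodule.zero_mem _
    · rw [Submodule.mem_span_singleton]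
      refine ⟨v x₀, ?_⟩
      ext y
      obtain ⟨g, hg, rfl⟩ := htrans x₀ y
      simp [h' g hg x₀]
  exact (Submodule.finrank_mono hle).trans (ree_finrank_span_singleton_le K _)

lemma ree_card_le_finrank_sup :
    Fintype.card X ≤ finrank K (LinearMap.range (1 - reeP K a) ⊔ LinearMap.range (1 - reeP K b) :
      Submodule K (X → K)) + 1 := by
  set W : Submodule K (X → K) := LinearMap.range (1 - reeP K a) ⊔ LinearMap.range (1 - reeP K b)
    with hW
  rcases isEmpty_or_nonempty X with hX | ⟨⟨x₀⟩⟩
  · simp
  have hsingle : ∀ (s : Perm X) (x : X), reeP K s (Pi.single x 1) = Pi.single (s x) 1 := by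
    intro s x
    ext y
    rw [reeP_apply, Pi.single_apply, Pi.single_apply]
    congr 1
    rw [eq_iff_iff, symm_apply_eq]
  have hgen : ∀ g ∈ ({a, b} : Set (Perm X)), ∀ x,
      (Pi.single x 1 - Pi.single (g x) 1 : X → K) ∈ W := by
    rintro g (rfl | rfl) x
    · apply Submodule.mem_sup_left
      exact ⟨Pi.single x 1, by rw [LinearMap.sub_apply, Module.End.one_apply, hsingle]⟩
    · apply Submodule.mem_sup_right
      exact ⟨Pi.single x 1, by rw [LinearMap.sub_apply, Module.End.one_apply, hsingle]⟩
  have hall : ∀ g ∈ Subgroup.closure ({a, b} : Set (Perm X)), ∀ x,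
      (Pi.single x 1 - Pi.single (g x) 1 : X → K) ∈ W := by
    intro g hg
    induction hg using Subgroup.closure_induction with
    | mem g hg => exact hgen g hg
    | one => intro x; simp
    | mul g g' _ _ h1 h2 =>
      intro x
      have := W.add_mem (h2 x) (h1 (g' x))
      rw [Perm.mul_apply]
      convert this using 1
      abel
    | inv g _ h1 =>
      intro x
      have := W.neg_mem (h1 (g⁻¹ x))
      rw [show g (g⁻¹ x) = x from g.apply_symm_apply x] at this
      convert this using 1
      abel
  have htop : (⊤ : Submodule K (X → K)) ≤ W ⊔ Submodule.span K {(Pi.single x₀ 1 : X → K)} := by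
    rw [← (Pi.basisFun K X).span_eq, Submodule.span_le]
    rintro _ ⟨y, rfl⟩
    obtain ⟨g, hg, rfl⟩ := htrans x₀ y
    have h1 := W.neg_mem (hall g hg x₀)
    have h2 : (Pi.single x₀ 1 : X → K) ∈ Submodule.span K {(Pi.single x₀ 1 : X → K)} :=
      Submodule.mem_span_singleton_self _
    have := Submodule.add_mem_sup h1 h2
    rw [Pi.basisFun_apply]
    have e : (Pi.single (g x₀) 1 : X → K) =
        -(Pi.single x₀ 1 - Pi.single (g x₀) 1) + Pi.single x₀ 1 := by abel
    rw [e]
    exact this
  have h1 := Submodule.finrank_mono htop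
  rw [finrank_top, Module.finrank_fintype_fun_eq_card] at h1
  have h2 := Submodule.finrank_add_le_finrank_add_finrank W
    (Submodule.span K {(Pi.single x₀ 1 : X → K)})
  have h3 := ree_finrank_span_singleton_le K (Pi.single x₀ 1 : X → K)
  omega

/-- Ree's inequality. -/
theorem ree_le : reeOrb a + reeOrb b + reeOrb (a * b) ≤ Fintype.card X + 2 := by
  have h := ree_scott (reeP ℚ a) (reeP ℚ b)
  rw [← reeP_mul, Module.finrank_fintype_fun_eq_card] at h
  have h1 := ree_finrank_range ℚ a
  have h2 := ree_finrank_range ℚ b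
  have h3 := ree_finrank_range ℚ (a * b)
  have h4 := ree_finrank_inv_le ℚ a b htrans
  have h5 := ree_card_le_finrank_sup ℚ a b htrans
  omega

/-- The genus of a transitive pair of permutations. -/
theorem ree_exists_genus :
    ∃ g : ℕ, Fintype.card X + 2 = reeOrb a + reeOrb b + reeOrb (a * b) + 2 * g := by
  have h1 := ree_le a b htrans
  obtain ⟨r, hr⟩ := ree_even a b
  exact ⟨Fintype.card X + 1 - r, by omega⟩

end PermModule

section Action

variable {G X : Type*} [Group G] [MulAction G X]

lemma ree_card_orbits_eq (g : G) :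
    Nat.card (MulAction.orbitRel.Quotient (Subgroup.zpowers g) X) =
      reeOrb (MulAction.toPerm g : Perm X) := by
  unfold reeOrb
  apply Nat.card_congr
  apply Quotient.congrRight
  intro x y
  show MulAction.orbitRel (Subgroup.zpowers g) X x y ↔
    MulAction.orbitRel (Subgroup.zpowers (MulAction.toPerm g : Perm X)) X x y
  rw [ree_orbitRel_iff, MulAction.orbitRel_apply, MulAction.mem_orbit_iff]
  have key : ∀ n : ℤ, ((MulAction.toPerm g : Perm X) ^ n) y = g ^ n • y := by
    intro n
    have : (MulAction.toPerm g : Perm X) ^ n = MulAction.toPerm (g ^ n) :=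
      (map_zpow (MulAction.toPermHom G X) g n).symm
    rw [this]; rfl
  constructor
  · rintro ⟨⟨h, n, rfl⟩, hg⟩
    exact ⟨n, by rw [key]; exact hg⟩
  · rintro ⟨n, hn⟩
    exact ⟨⟨g ^ n, n, rfl⟩, by rw [key] at hn; exact hn⟩

/-- **Ree / Scott** for a transitive action of a group generated by two elements: the "genus"
is a natural number. -/
theorem ree_action [Finite X] [MulAction.IsPretransitive G X] (a b : G)
    (hgen : Subgroup.closure ({a, b} : Set G) = ⊤) :
    ∃ g : ℕ, Nat.card X + 2 =
      Nat.card (MulAction.orbitRel.Quotient (Subgroup.zpowers a) X) +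
      Nat.card (MulAction.orbitRel.Quotient (Subgroup.zpowers b) X) +
      Nat.card (MulAction.orbitRel.Quotient (Subgroup.zpowers (a * b)) X) + 2 * g := by
  classical
  have : Fintype X := Fintype.ofFinite X
  rw [ree_card_orbits_eq a, ree_card_orbits_eq b, ree_card_orbits_eq (a * b),
    Nat.card_eq_fintype_card]
  have hmul : (MulAction.toPerm (a * b) : Perm X) = MulAction.toPerm a * MulAction.toPerm b :=
    map_mul (MulAction.toPermHom G X) a b
  rw [hmul]
  apply ree_exists_genus
  intro x y
  obtain ⟨h, rfl⟩ := MulAction.exists_smul_eq G x y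
  refine ⟨MulAction.toPerm h, ?_, rfl⟩
  have h1 : h ∈ Subgroup.closure ({a, b} : Set G) := by rw [hgen]; trivial
  have h2 := Subgroup.mem_map_of_mem (MulAction.toPermHom G X) h1
  rw [MonoidHom.map_closure, Set.image_pair] at h2
  exact h2

end Action

end Fermat.Agent.X0
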